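import Fermat.Agent.AbVar.Scheme.Unramified

/-!
# Multiplication by an invertible integer is étale
-/

set_option autoImplicit false

noncomputable section

namespace Fermat.Agent.AbVar.Sch

open CategoryTheory CategoryTheory.Limits AlgebraicGeometry NeronModelInfra GoodReductionJacobian
open TensorProduct

universe u

/-- An unramified map of smooth algebras with differentials of the same rank is étale. -/
theorem etale_of_formallyUnramified_of_rank {K B C : Type u} [Field K] [CommRing B] [CommRing C]
    [Algebra K B] [Algebra K C] [Algebra B C] [IsScalarTower K B C] [Algebra.Smooth K B]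
    [Algebra.Smooth K C] [Algebra.FormallyUnramified B C] (g : ℕ)
    (hB : ∀ p : PrimeSpectrum B, Module.rankAtStalk Ω[B⁄K] p = g) (hC : ∀ p : PrimeSpectrum C, Module.rankAtStalk Ω[C⁄K] p = g) :
    Algebra.Etale B C := by
  let f := KaehlerDifferential.mapBaseChange K B C
  have hf : Function.Surjective f := fun x =>
    (KaehlerDifferential.exact_mapBaseChange_map K B C x).mp (Subsingleton.elim _ _)
  obtain ⟨s, hs⟩ := Module.projective_lifting_property f LinearMap.id hf
  have hs' : ∀ x, f (s x) = x := fun x => LinearMap.congr_fun hs x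
  let π : C ⊗[B] Ω[B⁄K] →ₗ[C] LinearMap.ker f :=
    (LinearMap.id - s ∘ₗ f).codRestrict _ fun x => by simp [hs']
  have hπ : π ∘ₗ (LinearMap.ker f).subtype = LinearMap.id := by
    refine LinearMap.ext fun x => Subtype.ext ?_
    have hx : f x.1 = 0 := x.2
    simp [π, hx]
  have : Module.Finite C (LinearMap.ker f) := Module.Finite.of_surjective π fun x =>
    ⟨x.1, LinearMap.congr_fun hπ x⟩
  have : Module.Projective C (LinearMap.ker f) := Module.Projective.of_split _ π hπ
  let e : C ⊗[B] Ω[B⁄K] ≃ₗ[C] LinearMap.ker f × Ω[C⁄K] := LinearEquiv.ofLinearMap (π.prod f)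
    ((LinearMap.ker f).subtype.coprod s)
    (LinearMap.ext fun x => by
      have hx : f x.1.1 = 0 := x.1.2
      ext <;> simp [π, hx, hs'])
    (LinearMap.ext fun x => by simp [π])
  have hk : Subsingleton (LinearMap.ker f) :=
    (Module.rankAtStalk_eq_zero_iff_subsingleton (R := C)).mp (funext fun p => by
      have h := congrFun (Module.rankAtStalk_eq_of_equiv (R := C) (M := C ⊗[B] Ω[B⁄K]) (N := LinearMap.ker f × Ω[C⁄K]) e) p
      rw [Module.rankAtStalk_baseChange, hB, Module.rankAtStalk_prod, Pi.add_apply, hC] at h
      simpa using h)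
  have hδ : ∀ x, Algebra.H1Cotangent.δ K B C x = 0 := fun x =>
    congrArg Subtype.val (Subsingleton.elim (⟨Algebra.H1Cotangent.δ K B C x,
      ((Algebra.H1Cotangent.exact_δ_mapBaseChange K B C _).mpr ⟨x, rfl⟩)⟩ : LinearMap.ker f) 0)
  have : Subsingleton (Algebra.H1Cotangent B C) := subsingleton_of_forall_eq 0 fun x => by
    obtain ⟨y, rfl⟩ := (Algebra.H1Cotangent.exact_map_δ K B C x).mp (hδ x)
    rw [Subsingleton.elim y 0, map_zero]
  have : Algebra.FormallySmooth B C := (Algebra.formallySmooth_iff B C).mpr ⟨inferInstance, inferInstance⟩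
  have : IsNoetherianRing B := Algebra.FiniteType.isNoetherianRing K B
  have : Algebra.FiniteType B C := Algebra.FiniteType.of_restrictScalars_finiteType K B C
  exact ⟨.of_formallyUnramified_and_formallySmooth, Algebra.FinitePresentation.of_finiteType.mp ‹_›⟩

variable {K : Type u} [Field K] {A : Scheme.{u}} (f : A ⟶ Spec (CommRingCat.of K))

/-- The differentials of a chart have the rank of the function field's differentials. -/
theorem finrank_kaehler_chart [AlgebraicGeometry.IsIntegral A] (c : Chart A) :
    letI := fieldAlg f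
    letI := (chartHom f c.U).toAlgebra
    Module.finrank A.functionField Ω[A.functionField⁄K] =
      Module.finrank Γ(A, c.U) Ω[Γ(A, c.U)⁄K] := by
  let := fieldAlg f
  let := (chartHom f c.U).toAlgebra
  let := c.alg
  have := c.isFractionRing
  have : IsScalarTower K Γ(A, c.U) A.functionField :=
    IsScalarTower.of_algebraMap_eq' (germHom_chartHom f c.gen_mem).symm
  have := Algebra.FormallyEtale.of_isLocalization (Rₘ := A.functionField)
    (nonZeroDivisors Γ(A, c.U))
  exact (KaehlerDifferential.isBaseChange_of_formallyEtale K Γ(A, c.U) A.functionField).finrank_eq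

theorem finrank_kaehler_functionField [AlgebraicGeometry.IsIntegral A] (g : ℕ)
    [SmoothOfRelativeDimension g f] :
    letI := fieldAlg f
    Module.finrank A.functionField Ω[A.functionField⁄K] = g := by
  let := fieldAlg f
  obtain ⟨U, -, V, hV, hxV, e, h⟩ :=
    SmoothOfRelativeDimension.exists_isStandardSmoothOfRelativeDimension (n := g) (f := f)
      (genericPoint A)
  have hU : U = ⊤ := top_le_iff.mp fun y _ => by
    rw [show y = f (genericPoint A) from Subsingleton.elim (α := PrimeSpectrum K) _ _]
    exact e hxV
  subst hU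
  let c : Chart A := ⟨V, hV, hxV⟩
  have : Nonempty c.U := c.nonempty
  let := (chartHom f c.U).toAlgebra
  have : Algebra.IsStandardSmoothOfRelativeDimension g K Γ(A, c.U) := by
    show RingHom.IsStandardSmoothOfRelativeDimension g (chartHom f c.U)
    rw [chartHom, CommRingCat.hom_comp,
      RingHom.isStandardSmoothOfRelativeDimension_respectsIso.cancel_left_isIso]
    exact h
  rw [finrank_kaehler_chart f c]
  exact Module.finrank_eq_of_rank_eq
    (Algebra.IsStandardSmoothOfRelativeDimension.rank_kaehlerDifferential g)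

/-- The differentials of an affine open have constant rank. -/
theorem rankAtStalk_kaehler [AlgebraicGeometry.IsIntegral A] [Smooth f] (g : ℕ)
    [SmoothOfRelativeDimension g f] {U : A.Opens} (hU : IsAffineOpen U) :
    letI := (chartHom f U).toAlgebra
    ∀ p : PrimeSpectrum Γ(A, U), Module.rankAtStalk Ω[Γ(A, U)⁄K] p = g := by
  intro p
  have hp : hU.fromSpec p ∈ U := by rw [← SetLike.mem_coe, ← hU.range_fromSpec]; exact ⟨p, rfl⟩
  let c : Chart A := ⟨U, hU, gen_mem_of_mem hp⟩
  have : IsDomain Γ(A, U) := (germHom_injective c.gen_mem).isDomain (germHom U c.gen_mem)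
  let := (chartHom f U).toAlgebra
  have : Algebra.Smooth K Γ(A, U) := smooth_chartHom f hU
  rw [Module.rankAtStalk_eq, Ideal.finrank_fiber_eq_finrank]
  exact (finrank_kaehler_chart f c).symm.trans (finrank_kaehler_functionField f g)

variable {f} (L : RelativeGroupLaw K f)

include L in
/-- Multiplication by an invertible integer is étale. -/
theorem etale_schemeNsmul [IsAlgClosed K] [AlgebraicGeometry.IsIntegral A] [Smooth f]
    (hc : L.IsCommutative) (g : ℕ) [SmoothOfRelativeDimension g f] (n : ℕ) (hn : (n : K) ≠ 0) :
    AlgebraicGeometry.Etale (L.schemeNsmul n) := by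
  refine ⟨fun {U} hU {V} hV e => ?_⟩
  let := (chartHom f U).toAlgebra
  let := (chartHom f V).toAlgebra
  set θ := ((L.schemeNsmul n).appLE U V e).hom with hθ
  have key : Spec.map (CommRingCat.ofHom θ) ≫ hU.fromSpec = hV.fromSpec ≫ L.schemeNsmul n :=
    IsAffineOpen.SpecMap_appLE_fromSpec _ _ _ e
  have hθK : θ.comp (chartHom f U) = chartHom f V := by
    refine specMap_ofHom_inj ?_
    rw [← specMap_ofHom_comp]
    show Spec.map (CommRingCat.ofHom θ) ≫ specK (chartHom f U) = specK (chartHom f V)
    rw [← fromSpec_comp f hU, ← Category.assoc, key, Category.assoc, L.schemeNsmul_over,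
      fromSpec_comp]
  let := θ.toAlgebra
  have : IsScalarTower K Γ(A, U) Γ(A, V) := IsScalarTower.of_algebraMap_eq' hθK.symm
  have : Algebra.Smooth K Γ(A, U) := smooth_chartHom f hU
  have : Algebra.Smooth K Γ(A, V) := smooth_chartHom f hV
  have : Algebra.FormallyUnramified Γ(A, U) Γ(A, V) :=
    formallyUnramified_of_forall fun x D hD hDK hDθ =>
      derivation_eq_zero L hc n hn hU hV e x.toRingHom x.comp_algebraMap D hD hDK hDθ
  exact etale_of_formallyUnramified_of_rank g (rankAtStalk_kaehler f g hU)
    (rankAtStalk_kaehler f g hV)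

end Fermat.Agent.AbVar.Sch
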