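import Fermat.Agent.AbVar.Scheme.Points
import Fermat.Agent.AbVar.LocalAlgebra

/-!
# A connected smooth scheme over an algebraically closed field is integral
-/

set_option autoImplicit false

noncomputable section

namespace Fermat.Agent.AbVar.Sch

open CategoryTheory CategoryTheory.Limits AlgebraicGeometry TopologicalSpace

universe u

/-- When all local rings at maximal ideals are domains, every prime has a basic neighbourhood
which is irreducible. -/
theorem exists_irreducible_basicOpen {B : Type u} [CommRing B] [IsNoetherianRing B]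
    (hB : ∀ (m : Ideal B) [m.IsMaximal], IsDomain (Localization.AtPrime m))
    (p : PrimeSpectrum B) :
    ∃ b : B, p ∈ PrimeSpectrum.basicOpen b ∧
      IsPreirreducible (PrimeSpectrum.basicOpen b : Set (PrimeSpectrum B)) := by
  obtain ⟨m, hm, hpm⟩ := p.asIdeal.exists_le_maximal p.isPrime.ne_top
  have := hB m
  set q : Ideal B := RingHom.ker (algebraMap B (Localization.AtPrime m)) with hq
  have hqprime : q.IsPrime := RingHom.ker_isPrime _
  have hle : ∀ r : Ideal B, r.IsPrime → r ≤ m → q ≤ r := fun r hr hrm x hx => by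
    rw [hq, RingHom.mem_ker, IsLocalization.map_eq_zero_iff m.primeCompl] at hx
    obtain ⟨⟨s, hs⟩, hsx⟩ := hx
    exact (hr.mem_or_mem (by rw [hsx]; exact r.zero_mem)).resolve_left fun h => hs (hrm h)
  have hfin : {r ∈ minimalPrimes B | r ≠ q}.Finite :=
    (minimalPrimes.finite_of_isNoetherianRing B).subset fun _ h => h.1
  have hmin : ∀ r ∈ hfin.toFinset, ∃ b ∈ r, b ∉ p.asIdeal := fun r hr => by
    rw [Set.Finite.mem_toFinset] at hr
    refine SetLike.not_le_iff_exists.mp fun hrp => hr.2 ?_
    exact le_antisymm (hr.1.2 ⟨hqprime, bot_le⟩ (hle r hr.1.1.1 (hrp.trans hpm)))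
      (hle r hr.1.1.1 (hrp.trans hpm))
  choose b hb hbp using hmin
  refine ⟨∏ r ∈ hfin.toFinset.attach, b r.1 r.2, ?_, ?_⟩
  · intro h
    obtain ⟨r, -, hr⟩ := (p.isPrime.prod_mem_iff).mp h
    exact hbp r.1 r.2 hr
  · refine IsPreirreducible.open_subset
      ((PrimeSpectrum.isIrreducible_zeroLocus_iff_of_radical q hqprime.isRadical).mpr
        hqprime).isPreirreducible (PrimeSpectrum.isOpen_basicOpen) fun r hr => ?_
    rw [PrimeSpectrum.mem_zeroLocus]
    have := r.isPrime
    obtain ⟨r', hr', hle'⟩ := Ideal.exists_minimalPrimes_le (I := ⊥) (J := r.asIdeal) bot_le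
    by_cases hq' : r' = q
    · exact fun x hx => hle' (hq' ▸ hx)
    · refine absurd ?_ hr
      refine r.isPrime.prod_mem_iff.mpr
        ⟨⟨r', hfin.mem_toFinset.mpr ⟨hr', hq'⟩⟩, Finset.mem_attach _ _, ?_⟩
      exact hle' (hb _ _)

/-- A connected space with irreducible open neighbourhoods is irreducible. -/
theorem irreducibleSpace_of_locally {X : Type u} [TopologicalSpace X] [ConnectedSpace X]
    (h : ∀ x : X, ∃ U : Set X, IsOpen U ∧ x ∈ U ∧ IsPreirreducible U) : IrreducibleSpace X := by
  have key : ∀ U : Set X, IsOpen U → U.Nonempty → closure U = Set.univ := fun U hU hne => by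
    refine IsClopen.eq_univ ⟨isClosed_closure, isOpen_iff_mem_nhds.mpr fun x hx => ?_⟩ hne.closure
    obtain ⟨W, hW, hxW, hWi⟩ := h x
    refine Filter.mem_of_superset (hW.mem_nhds hxW) fun y hy => mem_closure_iff.mpr fun O hO hyO => ?_
    obtain ⟨z, hzW, hzU, hzO⟩ := hWi U O hU hO
      (by rw [Set.inter_comm]; exact (mem_closure_iff.mp hx W hW hxW).imp fun _ h => ⟨h.2, h.1⟩)
      ⟨y, hy, hyO⟩
    exact ⟨z, hzO, hzU⟩
  have : PreirreducibleSpace X := ⟨fun U V hU hV ⟨x, hx⟩ ⟨y, hy⟩ => by
    have hy' : y ∈ closure U := by rw [key U hU ⟨x, hx.2⟩]; trivial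
    obtain ⟨z, hzV, hzU⟩ := mem_closure_iff.mp hy' V hV hy.2
    exact ⟨z, trivial, hzU, hzV⟩⟩
  exact ⟨inferInstance⟩

variable {K : Type u} [Field K] [IsAlgClosed K] {A : Scheme.{u}}
  (f : A ⟶ Spec (CommRingCat.of K)) [Smooth f]

omit [IsAlgClosed K] in
theorem smooth_chartHom {U : A.Opens} (hU : IsAffineOpen U) : (chartHom f U).Smooth := by
  rw [chartHom, CommRingCat.hom_comp,
    RingHom.Smooth.propertyIsLocal.respectsIso.cancel_left_isIso]
  exact f.smooth_appLE (isAffineOpen_top _) hU _

omit [IsAlgClosed K] in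
include f in
theorem isNoetherianRing_chart {U : A.Opens} (hU : IsAffineOpen U) :
    IsNoetherianRing Γ(A, U) := by
  let := (chartHom f U).toAlgebra
  have : Algebra.Smooth K Γ(A, U) := smooth_chartHom f hU
  exact Algebra.FiniteType.isNoetherianRing K Γ(A, U)

include f in
theorem isDomain_localization_chart {U : A.Opens} (hU : IsAffineOpen U) (m : Ideal Γ(A, U))
    [m.IsMaximal] : IsDomain (Localization.AtPrime m) := by
  let := (chartHom f U).toAlgebra
  have : Algebra.Smooth K Γ(A, U) := smooth_chartHom f hU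
  exact isDomain_localization_of_smooth K m

include f in
theorem isIntegral_of_smooth_of_connected [ConnectedSpace A] : AlgebraicGeometry.IsIntegral A := by
  have : IrreducibleSpace A := irreducibleSpace_of_locally fun x => by
    obtain ⟨_, ⟨U, hU, rfl⟩, hxU, -⟩ :=
      A.isBasis_affineOpens.exists_subset_of_mem_open (Set.mem_univ x) isOpen_univ
    have := isNoetherianRing_chart f hU
    obtain ⟨b, hb, hirr⟩ := exists_irreducible_basicOpen
      (fun m _ => isDomain_localization_chart f hU m) (hU.primeIdealOf ⟨x, hxU⟩)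
    refine ⟨hU.fromSpec '' (PrimeSpectrum.basicOpen b : Set (PrimeSpectrum Γ(A, U))), ?_,
      ⟨_, hb, hU.fromSpec_primeIdealOf ⟨x, hxU⟩⟩,
      hirr.image _ hU.fromSpec.continuous.continuousOn⟩
    have := hU.isOpenImmersion_fromSpec
    exact hU.fromSpec.isOpenEmbedding.isOpenMap _ (PrimeSpectrum.isOpen_basicOpen)
  have : ∀ x : A, _root_.IsReduced (A.presheaf.stalk x) := fun x => by
    obtain ⟨_, ⟨U, hU, rfl⟩, hxU, -⟩ :=
      A.isBasis_affineOpens.exists_subset_of_mem_open (Set.mem_univ x) isOpen_univ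
    have : _root_.IsReduced Γ(A, U) := isReduced_ofLocalizationMaximal _ fun m hm =>
      have := isDomain_localization_chart f hU m
      (inferInstance : _root_.IsReduced (Localization.AtPrime m))
    let := TopCat.Presheaf.algebra_section_stalk A.presheaf (U := U) ⟨x, hxU⟩
    have := hU.isLocalization_stalk ⟨x, hxU⟩
    exact isReduced_localizationPreserves (hU.primeIdealOf ⟨x, hxU⟩).asIdeal.primeCompl
      (A.presheaf.stalk x) ‹_›
  have := isReduced_of_isReduced_stalk A
  exact isIntegral_of_irreducibleSpace_of_isReduced A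

end Fermat.Agent.AbVar.Sch
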