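import Fermat.Agent.AbVar.Scheme.Field
import Fermat.Agent.AbVar.Scheme.Integral

/-!
# Normality and finitely many charts with equations of a divisor
-/

set_option autoImplicit false

noncomputable section

namespace Fermat.Agent.AbVar.Sch

open CategoryTheory CategoryTheory.Limits AlgebraicGeometry NeronModelInfra GoodReductionJacobian

universe u

variable {K : Type u} [Field K] {A : Scheme.{u}} [AlgebraicGeometry.IsIntegral A]
  (f : A ⟶ Spec (CommRingCat.of K))

theorem Chart.isDomain (c : Chart A) : IsDomain Γ(A, c.U) :=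
  (germHom_injective c.gen_mem).isDomain (germHom c.U c.gen_mem)

theorem chartRing_normal [IsAlgClosed K] [Smooth f] (c : Chart A) :
    letI := fieldAlg f
    IsIntegrallyClosed (chartRing f c) := by
  let := fieldAlg f
  let := (chartHom f c.U).toAlgebra
  have := c.isDomain
  have : Algebra.Smooth K Γ(A, c.U) := smooth_chartHom f c.affine
  have := isIntegrallyClosed_of_smooth (B := Γ(A, c.U)) K
  exact IsIntegrallyClosed.of_equiv (toChart f c)

/-- A chart with a principal ideal of denominators of `s`. -/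
structure EqChart (s : Finset A.functionField) where
  /-- The chart. -/
  c : Chart A
  /-- The equation. -/
  h : A.functionField
  h_ne : h ≠ 0
  h_mem : letI := fieldAlg f; h ∈ chartRing f c
  h_mul_mem : letI := fieldAlg f; ∀ z ∈ s, z * h ∈ chartRing f c
  minimal : ∀ x ∈ c.U, ∀ h' : A.functionField, h' ∈ locRing x →
    (∀ z ∈ s, z * h' ∈ locRing x) → h' / h ∈ locRing x

variable {f} in
/-- The chart on which the equation is `1`. -/
def EqChart.base {s : Finset A.functionField} (c : Chart A)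
    (hs : letI := fieldAlg f; ∀ z ∈ s, z ∈ chartRing f c) : EqChart f s :=
  letI := fieldAlg f
  { c := c, h := 1, h_ne := one_ne_zero, h_mem := one_mem _
    h_mul_mem := fun z hz => by rw [mul_one]; exact hs z hz
    minimal := fun x _ h' hh _ => by rwa [div_one] }

variable {f} in
theorem EqChart.h_div_mem [A.IsSeparated] {s : Finset A.functionField} (E E' : EqChart f s) :
    letI := fieldAlg f
    E.h / E'.h ∈ chartRing f (E.c.inf E'.c) := by
  let := fieldAlg f
  exact mem_chartRing_of_forall f _ fun x hx =>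
    E'.minimal x (E.c.inf_le_snd E'.c hx) E.h
      (chartRing_le_locRing f (E.c.inf_le_fst E'.c hx) _ E.h_mem)
      fun z hz => chartRing_le_locRing f (E.c.inf_le_fst E'.c hx) _ (E.h_mul_mem z hz)

variable {f} in
theorem EqChart.clear {s : Finset A.functionField} (E : EqChart f s) {a : A.functionField}
    (ha : letI := fieldAlg f; a ∈ Algebra.adjoin K (s : Set A.functionField)) :
    letI := fieldAlg f
    ∃ e : ℕ, a * E.h ^ e ∈ chartRing f E.c := by
  let := fieldAlg f
  induction ha using Algebra.adjoin_induction with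
  | mem x hx => exact ⟨1, by rw [pow_one]; exact E.h_mul_mem x hx⟩
  | algebraMap r =>
    exact ⟨0, by rw [pow_zero, mul_one]; exact (chartRing f E.c).algebraMap_mem r⟩
  | add x y _ _ hx hy =>
    obtain ⟨e, he⟩ := hx
    obtain ⟨e', he'⟩ := hy
    refine ⟨e + e', ?_⟩
    have : (x + y) * E.h ^ (e + e') = x * E.h ^ e * E.h ^ e' + y * E.h ^ e' * E.h ^ e := by ring
    rw [this]
    exact add_mem (mul_mem he (pow_mem E.h_mem _)) (mul_mem he' (pow_mem E.h_mem _))
  | mul x y _ _ hx hy =>
    obtain ⟨e, he⟩ := hx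
    obtain ⟨e', he'⟩ := hy
    refine ⟨e + e', ?_⟩
    have : x * y * E.h ^ (e + e') = x * E.h ^ e * (y * E.h ^ e') := by ring
    rw [this]
    exact mul_mem he he'

/-- Near every closed point there is a chart with an equation. -/
theorem exists_eqChart [IsAlgClosed K] [Smooth f] (s : Finset A.functionField) {x : A}
    (hx : IsClosed {x}) : ∃ E : EqChart f s, x ∈ E.c.U := by
  let := fieldAlg f
  obtain ⟨_, ⟨U, hU, rfl⟩, hxU, -⟩ :=
    A.isBasis_affineOpens.exists_subset_of_mem_open (Set.mem_univ x) isOpen_univ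
  let c : Chart A := ⟨U, hU, gen_mem_of_mem hxU⟩
  let := c.alg
  have := c.isFractionRing
  have := c.isDomain
  let := (chartHom f c.U).toAlgebra
  have : Algebra.Smooth K Γ(A, c.U) := smooth_chartHom f c.affine
  have hmax : (c.affine.primeIdealOf ⟨x, hxU⟩).asIdeal.IsMaximal :=
    c.affine.primeIdealOf_isMaximal_of_isClosed ⟨x, hxU⟩ hx
  obtain ⟨b, h, e, hb, hh, hmul, hmin⟩ :=
    exists_equation (F := A.functionField) K s (c.affine.primeIdealOf ⟨x, hxU⟩).asIdeal
  have hmem : ∀ y (hy : y ∈ c.U),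
      y ∈ A.basicOpen b ↔ b ∉ (c.affine.primeIdealOf ⟨y, hy⟩).asIdeal := fun y hy => by
    let := TopCat.Presheaf.algebra_section_stalk A.presheaf (U := c.U) ⟨y, hy⟩
    have := c.affine.isLocalization_stalk ⟨y, hy⟩
    exact (A.mem_basicOpen b y hy).trans
      (IsLocalization.AtPrime.isUnit_to_map_iff (A.presheaf.stalk y)
        (c.affine.primeIdealOf ⟨y, hy⟩).asIdeal b)
  have hxb : x ∈ A.basicOpen b := (hmem x hxU).mpr hb
  let d : Chart A := ⟨A.basicOpen b, c.affine.basicOpen b, gen_mem_of_mem hxb⟩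
  have hdc : d.U ≤ c.U := A.basicOpen_le b
  have hbu : ∃ v, germHom c.U c.gen_mem b * germHom d.U d.gen_mem v = 1 := by
    obtain ⟨w, hw⟩ : ∃ w : Γ(A, d.U), (A.presheaf.map (homOfLE hdc).op).hom b * w = 1 :=
      (A.toRingedSpace.isUnit_res_basicOpen b).exists_right_inv
    refine ⟨w, ?_⟩
    rw [← germHom_res hdc d.gen_mem, RingHom.comp_apply, ← map_mul]
    exact (congrArg _ hw).trans (map_one _)
  obtain ⟨v, hv⟩ := hbu
  refine ⟨⟨d, germHom c.U c.gen_mem h,
    (map_ne_zero_iff _ (germHom_injective c.gen_mem)).mpr hh,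
    chartRing_mono f hdc (germHom_mem f c h), fun z hz => ?_, fun y hy h' hh' hs => ?_⟩, hxb⟩
  · obtain ⟨a, ha⟩ := hmul z hz
    change z * germHom c.U c.gen_mem h * germHom c.U c.gen_mem b ^ e = germHom c.U c.gen_mem a at ha
    have : z * germHom c.U c.gen_mem h =
        germHom c.U c.gen_mem a * germHom d.U d.gen_mem v ^ e := by
      rw [← ha, mul_assoc, mul_assoc, ← mul_pow, hv, one_pow, mul_one]
    rw [this]
    exact mul_mem (chartRing_mono f hdc (germHom_mem f c a)) (pow_mem (germHom_mem f d v) e)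
  · exact (mem_locRing_iff c (hdc hy)).mpr (hmin _ (c.affine.primeIdealOf ⟨y, hdc hy⟩).isPrime
      ((hmem y (hdc hy)).mp hy) h' ((mem_locRing_iff c (hdc hy)).mp hh')
      fun z hz => (mem_locRing_iff c (hdc hy)).mp (hs z hz))

/-- Finitely many charts with equations cover. -/
theorem exists_eqCharts [IsAlgClosed K] [Smooth f] [QuasiCompact f] (s : Finset A.functionField) :
    ∃ (r : ℕ) (E : Fin r → EqChart f s), ∀ x : A, ∃ i, x ∈ (E i).c.U := by
  have : CompactSpace A := QuasiCompact.compactSpace_of_compactSpace f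
  have : JacobsonSpace A := LocallyOfFiniteType.jacobsonSpace f
  choose E hE using fun x : {x : A // IsClosed {x}} => exists_eqChart f s x.2
  have hcov : (Set.univ : Set A) ⊆ ⋃ x, ((E x).c.U : Set A) := by
    intro y _
    by_contra hy
    obtain ⟨x, hx, hxc⟩ := nonempty_inter_closedPoints
      (⟨y, hy⟩ : (⋃ x, ((E x).c.U : Set A))ᶜ.Nonempty)
      (isOpen_iUnion fun x => (E x).c.U.isOpen).isClosed_compl.isLocallyClosed
    exact hx (Set.mem_iUnion.mpr ⟨⟨x, hxc⟩, hE ⟨x, hxc⟩⟩)
  obtain ⟨t, ht⟩ := isCompact_univ.elim_finite_subcover _ (fun x => (E x).c.U.isOpen) hcov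
  refine ⟨t.card, fun i => E (t.equivFin.symm i).1, fun x => ?_⟩
  obtain ⟨y, hy, hxy⟩ := Set.mem_iUnion₂.mp (ht (Set.mem_univ x))
  exact ⟨t.equivFin ⟨y, hy⟩, by simpa using hxy⟩

end Fermat.Agent.AbVar.Sch
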