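import Fermat.Agent.AbVar.Scheme.Points
import Fermat.Agent.AbVar.LocalAlgebra

/-!
# Affine charts inside the function field
-/

set_option autoImplicit false

noncomputable section

namespace Fermat.Agent.AbVar.Sch

open CategoryTheory CategoryTheory.Limits AlgebraicGeometry NeronModelInfra GoodReductionJacobian

universe u

variable {K : Type u} [Field K] {A : Scheme.{u}} [AlgebraicGeometry.IsIntegral A]
  (f : A ⟶ Spec (CommRingCat.of K))

/-- An affine open containing the generic point. -/
structure Chart (A : Scheme.{u}) [AlgebraicGeometry.IsIntegral A] where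
  /-- The open. -/
  U : A.Opens
  affine : IsAffineOpen U
  gen_mem : genericPoint A ∈ U

theorem gen_mem_of_mem {U : A.Opens} {x : A} (hx : x ∈ U) : genericPoint A ∈ U :=
  ((genericPoint_spec A).mem_open_set_iff U.isOpen).mpr ⟨x, trivial, hx⟩

theorem Chart.nonempty (c : Chart A) : Nonempty c.U := ⟨⟨_, c.gen_mem⟩⟩

/-- The map into the function field. -/
def germHom (U : A.Opens) (h : genericPoint A ∈ U) : Γ(A, U) →+* A.functionField :=
  (A.presheaf.germ U (genericPoint A) h).hom

theorem germHom_injective {U : A.Opens} (h : genericPoint A ∈ U) :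
    Function.Injective (germHom U h) :=
  germ_injective_of_isIntegral A _ h

theorem germHom_res {U V : A.Opens} (h : V ≤ U) (hV : genericPoint A ∈ V) :
    (germHom V hV).comp (A.presheaf.map (homOfLE h).op).hom = germHom U (h hV) := by
  rw [germHom, germHom, ← CommRingCat.hom_comp, TopCat.Presheaf.germ_res]

/-- The inclusion of `K` into the function field. -/
def fieldHom : K →+* A.functionField :=
  (germHom ⊤ trivial).comp (chartHom f ⊤)

theorem germHom_chartHom {U : A.Opens} (h : genericPoint A ∈ U) :
    (germHom U h).comp (chartHom f U) = fieldHom f := by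
  rw [← chartHom_res f (le_top : U ≤ ⊤), ← RingHom.comp_assoc, germHom_res]; rfl

/-- The function field as an algebra over `K`. -/
@[reducible] def fieldAlg : Algebra K A.functionField := (fieldHom f).toAlgebra

/-- The ring of a chart inside the function field. -/
def chartRing (c : Chart A) :
    @Subalgebra K A.functionField _ _ (fieldAlg f) :=
  letI := fieldAlg f
  { (germHom c.U c.gen_mem).range.toSubsemiring with
    algebraMap_mem' := fun k =>
      ⟨chartHom f c.U k, RingHom.congr_fun (germHom_chartHom f c.gen_mem) k⟩ }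

theorem mem_chartRing {c : Chart A} {z : A.functionField} :
    letI := fieldAlg f
    z ∈ chartRing f c ↔ ∃ a, germHom c.U c.gen_mem a = z :=
  Iff.rfl

theorem germHom_mem (c : Chart A) (a : Γ(A, c.U)) :
    letI := fieldAlg f
    germHom c.U c.gen_mem a ∈ chartRing f c :=
  ⟨a, rfl⟩

theorem chartRing_mono {c d : Chart A} (h : d.U ≤ c.U) :
    letI := fieldAlg f
    chartRing f c ≤ chartRing f d := by
  rintro _ ⟨a, rfl⟩
  exact ⟨(A.presheaf.map (homOfLE h).op).hom a, RingHom.congr_fun (germHom_res h d.gen_mem) a⟩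

/-- The germ map onto the ring of a chart. -/
def toChart (c : Chart A) :
    letI := fieldAlg f
    Γ(A, c.U) ≃+* chartRing f c :=
  letI := fieldAlg f
  RingEquiv.ofBijective ((germHom c.U c.gen_mem).codRestrict (chartRing f c) (germHom_mem f c))
    ⟨fun _ _ h => germHom_injective c.gen_mem (congrArg Subtype.val h),
      fun ⟨_, a, ha⟩ => ⟨a, Subtype.ext ha⟩⟩

theorem coe_toChart (c : Chart A) (a : Γ(A, c.U)) :
    letI := fieldAlg f
    ((toChart f c a : chartRing f c) : A.functionField) = germHom c.U c.gen_mem a :=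
  rfl

theorem toChart_chartHom (c : Chart A) (k : K) :
    letI := fieldAlg f
    toChart f c (chartHom f c.U k) = algebraMap K (chartRing f c) k :=
  letI := fieldAlg f
  Subtype.ext (RingHom.congr_fun (germHom_chartHom f c.gen_mem) k)

/-- The point of a chart given by an algebra map. -/
def algPt (c : Chart A) {R : Type u} [CommRing R] [Algebra K R]
    (φ : letI := fieldAlg f; chartRing f c →ₐ[K] R) :
    SchemeHomOver (specK (algebraMap K R)) f :=
  letI := fieldAlg f
  chartPt f c.affine (φ.toRingHom.comp (toChart f c).toRingHom)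
    (RingHom.ext fun k => by
      simp only [RingHom.comp_apply, RingEquiv.toRingHom_eq_coe, RingEquiv.coe_toRingHom,
        toChart_chartHom, AlgHom.toRingHom_eq_coe, RingHom.coe_coe, AlgHom.commutes])

theorem range_algPt_subset (c : Chart A) {R : Type u} [CommRing R] [Algebra K R]
    (φ : letI := fieldAlg f; chartRing f c →ₐ[K] R) :
    Set.range (algPt f c φ).1 ⊆ (c.U : Set A) :=
  range_chartPt_subset c.affine _

theorem algPt_injective (c : Chart A) {R : Type u} [CommRing R] [Algebra K R]
    {φ ψ : letI := fieldAlg f; chartRing f c →ₐ[K] R}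
    (h : (algPt f c φ).1 = (algPt f c ψ).1) : φ = ψ := by
  let := fieldAlg f
  have := chartPt_injective c.affine h
  refine AlgHom.ext fun x => ?_
  obtain ⟨a, rfl⟩ := (toChart f c).surjective x
  exact RingHom.congr_fun this a

theorem exists_algPt (c : Chart A) {R : Type u} [CommRing R] [Algebra K R]
    (x : SchemeHomOver (specK (algebraMap K R)) f) (h : Set.range x.1 ⊆ (c.U : Set A)) :
    ∃ φ : (letI := fieldAlg f; chartRing f c →ₐ[K] R), algPt f c φ = x := by
  let := fieldAlg f
  obtain ⟨θ, hθ, rfl⟩ := exists_chartPt f c.affine x h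
  refine ⟨{ θ.comp (toChart f c).symm.toRingHom with commutes' := fun k => ?_ }, Subtype.ext ?_⟩
  · show θ ((toChart f c).symm (algebraMap K _ k)) = _
    rw [← toChart_chartHom, RingEquiv.symm_apply_apply, ← RingHom.comp_apply, hθ]
  · show Spec.map (CommRingCat.ofHom _) ≫ _ = Spec.map (CommRingCat.ofHom θ) ≫ _
    congr 3
    ext a
    show θ ((toChart f c).symm (toChart f c a)) = θ a
    rw [RingEquiv.symm_apply_apply]

theorem algPt_comp (c : Chart A) {R S : Type u} [CommRing R] [Algebra K R] [CommRing S]
    [Algebra K S] (s : R →ₐ[K] S) (φ : letI := fieldAlg f; chartRing f c →ₐ[K] R) :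
    Spec.map (CommRingCat.ofHom s.toRingHom) ≫ (algPt f c φ).1 =
      (algPt f c (letI := fieldAlg f; s.comp φ)).1 := by
  show _ ≫ Spec.map _ ≫ _ = Spec.map _ ≫ _
  rw [← Category.assoc, specMap_ofHom_comp]
  rfl

theorem algPt_mono {c d : Chart A} (h : d.U ≤ c.U) {R : Type u} [CommRing R] [Algebra K R]
    (φ : letI := fieldAlg f; chartRing f d →ₐ[K] R) :
    (algPt f c (letI := fieldAlg f; φ.comp (Subalgebra.inclusion (chartRing_mono f h)))).1 =
      (algPt f d φ).1 := by
  let := fieldAlg f
  show Spec.map (CommRingCat.ofHom _) ≫ _ = Spec.map _ ≫ _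
  rw [← chartPt_res c.affine d.affine h]
  congr 3
  ext a
  refine congrArg φ (Subtype.ext ?_)
  exact (RingHom.congr_fun (germHom_res h d.gen_mem) a).symm

/-- The generic point in a chart is independent of the chart. -/
theorem algPt_val (c : Chart A) :
    letI := fieldAlg f
    (algPt f c (chartRing f c).val).1 = A.fromSpecStalk (genericPoint A) := by
  rw [← c.affine.fromSpecStalk_eq_fromSpecStalk c.gen_mem]
  rfl

/-- The intersection of two charts. -/
def Chart.inf [A.IsSeparated] (c d : Chart A) : Chart A :=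
  ⟨c.U ⊓ d.U, c.affine.inf d.affine, ⟨c.gen_mem, d.gen_mem⟩⟩

theorem Chart.inf_le_fst [A.IsSeparated] (c d : Chart A) : (c.inf d).U ≤ c.U :=
  inf_le_left (a := c.U)

theorem Chart.inf_le_snd [A.IsSeparated] (c d : Chart A) : (c.inf d).U ≤ d.U :=
  inf_le_right (a := c.U)

/-- Algebra maps out of two charts with a common point extend to the intersection. -/
theorem exists_inf_hom [A.IsSeparated] (c d : Chart A) {R : Type u} [CommRing R] [Algebra K R]
    (φ : letI := fieldAlg f; chartRing f c →ₐ[K] R)
    (ψ : letI := fieldAlg f; chartRing f d →ₐ[K] R) (h : (algPt f c φ).1 = (algPt f d ψ).1) :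
    letI := fieldAlg f
    ∃ χ : chartRing f (c.inf d) →ₐ[K] R,
      χ.comp (Subalgebra.inclusion (chartRing_mono f (c.inf_le_fst d))) = φ ∧
      χ.comp (Subalgebra.inclusion (chartRing_mono f (c.inf_le_snd d))) =
        ψ := by
  obtain ⟨χ, hχ⟩ := exists_algPt f (c.inf d) (algPt f c φ) fun y hy =>
    ⟨range_algPt_subset f c φ hy, range_algPt_subset f d ψ (h ▸ hy)⟩
  have h1 : (algPt f (c.inf d) χ).1 = (algPt f c φ).1 := congrArg Subtype.val hχ
  exact ⟨χ, algPt_injective f c ((algPt_mono f (c.inf_le_fst d) χ).trans h1),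
    algPt_injective f d ((algPt_mono f (c.inf_le_snd d) χ).trans (h1.trans h))⟩

theorem isDominant_specMap {R S : Type u} [CommRing R] [CommRing S] {s : R →+* S}
    (hs : Function.Injective s) : IsDominant (Spec.map (CommRingCat.ofHom s)) := by
  refine ⟨?_⟩
  show DenseRange (PrimeSpectrum.comap s)
  rw [PrimeSpectrum.denseRange_comap_iff_ker_le_nilRadical,
    (RingHom.injective_iff_ker_eq_bot s).mp hs]
  exact bot_le

/-- In a separated scheme the two charts agree on the spectrum of the compositum. -/
theorem algPt_sup [IsSeparated f] (c d : Chart A) :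
    letI := fieldAlg f
    (algPt f c (Subalgebra.inclusion (le_sup_left : _ ≤ chartRing f c ⊔ chartRing f d))).1 =
      (algPt f d (Subalgebra.inclusion (le_sup_right : _ ≤ chartRing f c ⊔ chartRing f d))).1 := by
  let := fieldAlg f
  have : IsDominant (Spec.map (CommRingCat.ofHom (chartRing f c ⊔ chartRing f d).val.toRingHom)) :=
    isDominant_specMap Subtype.val_injective
  refine ext_of_isDominant_of_isSeparated f ?_
    (Spec.map (CommRingCat.ofHom (chartRing f c ⊔ chartRing f d).val.toRingHom)) ?_
  · exact (algPt f c _).2.trans (algPt f d _).2.symm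
  · rw [algPt_comp, algPt_comp]
    exact (algPt_val f c).trans (algPt_val f d).symm

/-- In a separated scheme the ring of an intersection is generated by the two rings. -/
theorem chartRing_inf [IsSeparated f] [A.IsSeparated] (c d : Chart A) :
    letI := fieldAlg f
    chartRing f (c.inf d) = chartRing f c ⊔ chartRing f d := by
  let := fieldAlg f
  refine le_antisymm ?_ (sup_le (chartRing_mono f (c.inf_le_fst d)) (chartRing_mono f (c.inf_le_snd d)))
  obtain ⟨θ, hθ⟩ := exists_algPt f (c.inf d) (algPt f c (Subalgebra.inclusion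
    (le_sup_left : _ ≤ chartRing f c ⊔ chartRing f d))) fun y hy =>
      ⟨range_algPt_subset f c _ hy, range_algPt_subset f d _ (algPt_sup f c d ▸ hy)⟩
  have h : (chartRing f c ⊔ chartRing f d).val.comp θ = (chartRing f (c.inf d)).val := by
    refine algPt_injective f (c.inf d) ?_
    rw [algPt_val, ← algPt_comp, show (algPt f (c.inf d) θ).1 = _ from congrArg Subtype.val hθ,
      algPt_comp]
    exact algPt_val f c
  intro z hz
  rw [show z = (θ ⟨z, hz⟩ : A.functionField) from (AlgHom.congr_fun h ⟨z, hz⟩).symm]
  exact SetLike.coe_mem _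

/-! ## Local rings -/

/-- The local ring at a point inside the function field. -/
def locRing (x : A) : Subring A.functionField :=
  (A.presheaf.stalkSpecializes ((genericPoint_spec A).specializes trivial : genericPoint A ⤳ x)).hom.range

theorem germHom_mem_locRing {U : A.Opens} {x : A} (hx : x ∈ U) (a : Γ(A, U)) :
    germHom U (gen_mem_of_mem hx) a ∈ locRing x :=
  ⟨A.presheaf.germ U x hx a, by rw [TopCat.Presheaf.germ_stalkSpecializes_apply]; rfl⟩

theorem chartRing_le_locRing {c : Chart A} {x : A} (hx : x ∈ c.U) :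
    letI := fieldAlg f
    ∀ z ∈ chartRing f c, z ∈ locRing x := by
  rintro _ ⟨a, rfl⟩
  exact germHom_mem_locRing hx a

/-- The germ map as an algebra. -/
@[reducible] def Chart.alg (c : Chart A) : Algebra Γ(A, c.U) A.functionField :=
  (germHom c.U c.gen_mem).toAlgebra

theorem Chart.isFractionRing (c : Chart A) :
    letI := c.alg
    IsFractionRing Γ(A, c.U) A.functionField :=
  have := c.nonempty
  functionField_isFractionRing_of_isAffineOpen A c.U c.affine

theorem mem_locRing_iff (c : Chart A) {x : A} (hx : x ∈ c.U) {z : A.functionField} :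
    letI := c.alg
    z ∈ locRing x ↔ InLoc (c.affine.primeIdealOf ⟨x, hx⟩).asIdeal z := by
  let := c.alg
  let := TopCat.Presheaf.algebra_section_stalk A.presheaf (U := c.U) ⟨x, hx⟩
  have := c.affine.isLocalization_stalk ⟨x, hx⟩
  have key : ∀ a, (A.presheaf.stalkSpecializes ((genericPoint_spec A).specializes trivial)).hom
      (algebraMap Γ(A, c.U) (A.presheaf.stalk x) a) = germHom c.U c.gen_mem a := fun a =>
    TopCat.Presheaf.germ_stalkSpecializes_apply ..
  constructor
  · rintro ⟨w, rfl⟩
    obtain ⟨⟨a, s⟩, h⟩ :=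
      IsLocalization.surj (c.affine.primeIdealOf ⟨x, hx⟩).asIdeal.primeCompl w
    refine ⟨a, s, s.2, ?_⟩
    show _ * germHom c.U c.gen_mem s = germHom c.U c.gen_mem a
    rw [← key, ← key, ← map_mul, h]
  · rintro ⟨a, s, hs, h⟩
    refine ⟨IsLocalization.mk' (A.presheaf.stalk x) a
      (⟨s, hs⟩ : (c.affine.primeIdealOf ⟨x, hx⟩).asIdeal.primeCompl), ?_⟩
    change z * germHom c.U c.gen_mem s = germHom c.U c.gen_mem a at h
    have hs0 : germHom c.U c.gen_mem s ≠ 0 := fun h0 => hs (by
      rw [(map_eq_zero_iff _ (germHom_injective c.gen_mem)).mp h0]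
      exact Submodule.zero_mem _)
    refine mul_right_cancel₀ hs0 ?_
    rw [h, ← key, ← key, ← map_mul, IsLocalization.mk'_spec]

/-- A function in all local rings of an affine open lies in its ring. -/
theorem mem_chartRing_of_forall (c : Chart A) {z : A.functionField}
    (h : ∀ x ∈ c.U, z ∈ locRing x) :
    letI := fieldAlg f
    z ∈ chartRing f c := by
  let := c.alg
  have := c.isFractionRing
  let D : Ideal Γ(A, c.U) :=
    (LinearMap.range (Algebra.linearMap Γ(A, c.U) A.functionField)).comap
      (LinearMap.toSpanSingleton Γ(A, c.U) A.functionField z)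
  suffices hD : (1 : Γ(A, c.U)) ∈ D by
    obtain ⟨a, ha⟩ := hD
    exact ⟨a, ha.trans (one_smul _ z)⟩
  rw [← Ideal.eq_top_iff_one]
  by_contra hne
  obtain ⟨m, hm, hle⟩ := D.exists_le_maximal hne
  let y : PrimeSpectrum Γ(A, c.U) := ⟨m, hm.isPrime⟩
  have hy : c.affine.fromSpec y ∈ c.U := by
    rw [← SetLike.mem_coe, ← c.affine.range_fromSpec]; exact ⟨y, rfl⟩
  have hp : c.affine.primeIdealOf ⟨_, hy⟩ = y := by
    have := c.affine.isOpenImmersion_fromSpec
    exact c.affine.fromSpec.isOpenEmbedding.injective (c.affine.fromSpec_primeIdealOf ⟨_, hy⟩)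
  obtain ⟨a, s, hs, ha⟩ := (mem_locRing_iff c hy).mp (h _ hy)
  rw [hp] at hs
  exact hs (hle ⟨a, by
    show algebraMap _ _ a = s • z
    rw [Algebra.smul_def, ← ha, mul_comm]⟩)

theorem chartRing_frac (c : Chart A) (z : A.functionField) :
    letI := fieldAlg f
    ∃ a ∈ chartRing f c, ∃ b ∈ chartRing f c, b ≠ 0 ∧ z = a / b := by
  let := c.alg
  have := c.isFractionRing
  have := (germHom c.U c.gen_mem).domain_nontrivial
  obtain ⟨a, b, hb, rfl⟩ := IsFractionRing.div_surjective (A := Γ(A, c.U)) z
  exact ⟨_, ⟨a, rfl⟩, _, ⟨b, rfl⟩,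
    (map_ne_zero_iff _ (germHom_injective c.gen_mem)).mpr (nonZeroDivisors.ne_zero hb), rfl⟩

theorem chartRing_fg [LocallyOfFiniteType f] (c : Chart A) :
    letI := fieldAlg f
    (chartRing f c).FG := by
  let := fieldAlg f
  let := (chartHom f c.U).toAlgebra
  have : Algebra.FiniteType K Γ(A, c.U) := by
    show (chartHom f c.U).FiniteType
    rw [chartHom, CommRingCat.hom_comp,
      RingHom.finiteType_respectsIso.cancel_left_isIso]
    exact f.finiteType_appLE (isAffineOpen_top _) c.affine _
  let φ : Γ(A, c.U) →ₐ[K] chartRing f c :=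
    { (toChart f c).toRingHom with commutes' := toChart_chartHom f c }
  have h : Algebra.FiniteType K (chartRing f c) :=
    Algebra.FiniteType.of_surjective φ (toChart f c).surjective
  exact (Subalgebra.fg_iff_finiteType _).mpr h

end Fermat.Agent.AbVar.Sch
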