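import Fermat.Agent.AbVar.Scheme.Group
import Fermat.Agent.AbVar.Scheme.Field
import Fermat.Agent.AbVar.Isogeny

/-!
# The degree of multiplication by an invertible integer
-/

set_option autoImplicit false

noncomputable section

namespace Fermat.Agent.AbVar.Sch

open CategoryTheory CategoryTheory.Limits AlgebraicGeometry NeronModelInfra GoodReductionJacobian

universe u

theorem fromSpecStalk_comp {K : Type u} [Field K] {A : Scheme.{u}} [AlgebraicGeometry.IsIntegral A]
    (f : A ⟶ Spec (CommRingCat.of K)) :
    A.fromSpecStalk (genericPoint A) ≫ f = specK (fieldHom f) := by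
  obtain ⟨_, ⟨U, hU, rfl⟩, hηU, -⟩ := A.isBasis_affineOpens.exists_subset_of_mem_open
    (Set.mem_univ (genericPoint A)) isOpen_univ
  let c : Chart A := ⟨U, hU, hηU⟩
  let := fieldAlg f
  rw [← algPt_val f c]
  exact (algPt f c _).2

theorem specMap_germHom {A : Scheme.{u}} [AlgebraicGeometry.IsIntegral A] (c : Chart A) :
    Spec.map (CommRingCat.ofHom (germHom c.U c.gen_mem)) ≫ c.affine.fromSpec =
      A.fromSpecStalk (genericPoint A) := by
  rw [← c.affine.fromSpecStalk_eq_fromSpecStalk c.gen_mem]
  rfl

variable {K : Type u} [Field K] [IsAlgClosed K] {A : Scheme.{u}} [AlgebraicGeometry.IsIntegral A]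
  {f : A ⟶ Spec (CommRingCat.of K)}

theorem exists_degree (L : RelativeGroupLaw K f) (hc : L.IsCommutative)
    (hA : AbelianSchemePropertyBundle K f) (g : ℕ) [SmoothOfRelativeDimension g f] (n : ℕ)
    (hn : (n : K) ≠ 0) :
    letI := fieldAlg f
    letI := Pts.group L hc K
    ∃ σ : A.functionField →ₐ[K] A.functionField,
      Spec.map (CommRingCat.ofHom σ.toRingHom) ≫ A.fromSpecStalk (genericPoint A) =
        A.fromSpecStalk (genericPoint A) ≫ L.schemeNsmul n ∧
      FiniteDimensional σ.fieldRange A.functionField ∧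
      Nat.card {P : Pts K f // n • P = 0} = Module.finrank σ.fieldRange A.functionField := by
  let := fieldAlg f
  let := Pts.group L hc K
  obtain ⟨hfin, het, hsurj⟩ := finite_etale_schemeNsmul K f L hc hA g n hn
  set N := L.schemeNsmul n with hN
  have hη : N (genericPoint A) = genericPoint A := by
    obtain ⟨y, hy⟩ := hsurj.surj (genericPoint A)
    have h1 := ((genericPoint_spec A).specializes (trivial : y ∈ ⊤)).map N.continuous
    rw [hy] at h1
    exact (h1.antisymm ((genericPoint_spec A).specializes (Set.mem_univ (N (genericPoint A))))).eq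
  let σ₀ : A.functionField ⟶ A.functionField :=
    (A.presheaf.stalkCongr (.of_eq hη)).inv ≫ N.stalkMap (genericPoint A)
  have hσ₀ : Spec.map σ₀ ≫ A.fromSpecStalk (genericPoint A) =
      A.fromSpecStalk (genericPoint A) ≫ N := by
    rw [Spec.map_comp, Category.assoc, ← Scheme.SpecMap_stalkMap_fromSpecStalk]
    congr 1
    exact Scheme.SpecMap_stalkSpecializes_fromSpecStalk (Inseparable.of_eq hη).specializes
  let σ : A.functionField →ₐ[K] A.functionField :=
    { σ₀.hom with
      commutes' := RingHom.congr_fun (specMap_ofHom_inj (s := σ₀.hom.comp (fieldHom f))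
        (t := fieldHom f) (by
          show _ = specK (fieldHom f)
          rw [← specMap_ofHom_comp, CommRingCat.ofHom_hom]
          refine (congrArg (Spec.map σ₀ ≫ ·) (fromSpecStalk_comp f).symm).trans ?_
          show Spec.map σ₀ ≫ A.fromSpecStalk (genericPoint A) ≫ f = _
          rw [← Category.assoc, hσ₀, Category.assoc, hN, L.schemeNsmul_over]
          exact fromSpecStalk_comp f)) }
  have hσ : Spec.map (CommRingCat.ofHom σ.toRingHom) ≫ A.fromSpecStalk (genericPoint A) =
      A.fromSpecStalk (genericPoint A) ≫ N := hσ₀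
  refine ⟨σ, hσ, ?_⟩
  -- the chart around the origin and its preimage
  let o := (0 : Pts K f).hom
  obtain ⟨_, ⟨U, hU, rfl⟩, hoU, -⟩ := A.isBasis_affineOpens.exists_subset_of_mem_open
    (Set.mem_univ (o (IsLocalRing.closedPoint K))) isOpen_univ
  let c : Chart A := ⟨U, hU, gen_mem_of_mem hoU⟩
  let d : Chart A := ⟨N ⁻¹ᵁ U, hU.preimage N, by
    show N (genericPoint A) ∈ U
    rw [hη]; exact c.gen_mem⟩
  let := (chartHom f c.U).toAlgebra
  let := (chartHom f d.U).toAlgebra
  set θ := (N.appLE c.U d.U le_rfl).hom with hθ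
  have key : Spec.map (CommRingCat.ofHom θ) ≫ c.affine.fromSpec = d.affine.fromSpec ≫ N :=
    IsAffineOpen.SpecMap_appLE_fromSpec _ _ _ le_rfl
  have hθK : θ.comp (chartHom f c.U) = chartHom f d.U := by
    refine specMap_ofHom_inj ?_
    rw [← specMap_ofHom_comp]
    show Spec.map (CommRingCat.ofHom θ) ≫ specK (chartHom f c.U) = specK (chartHom f d.U)
    rw [← fromSpec_comp f c.affine, ← Category.assoc, key, Category.assoc, hN,
      L.schemeNsmul_over, fromSpec_comp]
  have hσθ : σ.toRingHom.comp (germHom c.U c.gen_mem) = (germHom d.U d.gen_mem).comp θ := by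
    refine chartPt_injective c.affine ?_
    calc Spec.map (CommRingCat.ofHom (σ.toRingHom.comp (germHom c.U c.gen_mem))) ≫ c.affine.fromSpec
        = Spec.map (CommRingCat.ofHom σ.toRingHom) ≫
            Spec.map (CommRingCat.ofHom (germHom c.U c.gen_mem)) ≫ c.affine.fromSpec := by
          rw [← Category.assoc, specMap_ofHom_comp]
      _ = A.fromSpecStalk (genericPoint A) ≫ N := by rw [specMap_germHom]; exact hσ
      _ = Spec.map (CommRingCat.ofHom (germHom d.U d.gen_mem)) ≫
            Spec.map (CommRingCat.ofHom θ) ≫ c.affine.fromSpec := by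
          rw [key, ← Category.assoc, specMap_germHom]
      _ = _ := by rw [← Category.assoc, specMap_ofHom_comp]
  let := θ.toAlgebra
  have : IsScalarTower K Γ(A, c.U) Γ(A, d.U) := IsScalarTower.of_algebraMap_eq' hθK.symm
  have : IsDomain Γ(A, c.U) := (germHom_injective c.gen_mem).isDomain (germHom c.U c.gen_mem)
  have : IsDomain Γ(A, d.U) := (germHom_injective d.gen_mem).isDomain (germHom d.U d.gen_mem)
  have hθinj : Function.Injective θ :=
    Function.Injective.of_comp (f := germHom d.U d.gen_mem) (by
      rw [← RingHom.coe_comp, ← hσθ]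
      exact σ.toRingHom.injective.comp (germHom_injective c.gen_mem))
  have : FaithfulSMul Γ(A, c.U) Γ(A, d.U) := (faithfulSMul_iff_algebraMap_injective _ _).mpr hθinj
  have : Module.Finite Γ(A, c.U) Γ(A, d.U) := by
    show θ.Finite
    rw [hθ, ← Scheme.Hom.app_eq_appLE]
    exact N.finite_app _ c.affine
  have : Algebra.Etale Γ(A, c.U) Γ(A, d.U) := N.etale_appLE c.affine d.affine le_rfl
  obtain ⟨y, hy, hyo⟩ := exists_chartPt f c.affine (Additive.toMul (0 : Pts K f))
    (range_subset_of_mem _ _ hoU)
  let yA : Γ(A, c.U) →ₐ[K] K := { y with commutes' := RingHom.congr_fun hy }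
  have hcard : Nat.card {P : Pts K f // n • P = 0} =
      Nat.card {x : Γ(A, d.U) →ₐ[K] K // x.comp (IsScalarTower.toAlgHom K _ _) = yA} := by
    refine (Nat.card_congr (Equiv.ofBijective
      (fun x : {x : Γ(A, d.U) →ₐ[K] K // x.comp (IsScalarTower.toAlgHom K _ _) = yA} =>
        (⟨Pts.mk (chartPt f d.affine x.1.toRingHom x.1.comp_algebraMap), ?_⟩ :
          {P : Pts K f // n • P = 0})) ⟨fun x x' h => ?_, fun P => ?_⟩)).symm
    · refine Pts.ext ?_
      rw [Pts.nsmul_hom]
      show (Spec.map _ ≫ _) ≫ N = _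
      rw [Category.assoc, ← key, ← Category.assoc, specMap_ofHom_comp,
        show x.1.toRingHom.comp θ = y from congrArg AlgHom.toRingHom x.2]
      exact congrArg Subtype.val hyo
    · exact Subtype.ext (AlgHom.ext fun a => RingHom.congr_fun
        (chartPt_injective d.affine (congrArg (fun P => Pts.hom P.1) h)) a)
    · have hP : P.1.hom ≫ N = o := by
        rw [hN, ← Pts.nsmul_hom L hc, P.2]
      obtain ⟨x, hx, hxP⟩ := exists_chartPt f d.affine (Additive.toMul P.1)
        (range_subset_of_mem _ (IsLocalRing.closedPoint K) (by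
          show (P.1.hom ≫ N) (IsLocalRing.closedPoint K) ∈ U
          rw [hP]
          exact hoU))
      refine ⟨⟨{ x with commutes' := RingHom.congr_fun hx }, ?_⟩,
        Subtype.ext (Pts.ext (congrArg Subtype.val hxP))⟩
      refine AlgHom.ext fun a => RingHom.congr_fun (chartPt_injective c.affine (θ := x.comp θ)
        (θ' := y) ?_) a
      rw [← specMap_ofHom_comp, Category.assoc, key, ← Category.assoc,
        show Spec.map (CommRingCat.ofHom x) ≫ d.affine.fromSpec = P.1.hom from
          congrArg Subtype.val hxP, hP]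
      exact (congrArg Subtype.val hyo).symm
  let L₀ := FractionRing Γ(A, c.U)
  obtain ⟨i, hi₀⟩ : ∃ i : L₀ ≃+* σ.fieldRange, ∀ b,
      (i (algebraMap Γ(A, c.U) L₀ b) : A.functionField) = σ (germHom c.U c.gen_mem b) := by
    let := c.alg
    have := c.isFractionRing
    refine ⟨(FractionRing.algEquiv Γ(A, c.U) A.functionField).toRingEquiv.trans
      σ.equivFieldRange.toRingEquiv, fun b => ?_⟩
    show σ (FractionRing.algEquiv Γ(A, c.U) A.functionField (algebraMap Γ(A, c.U) L₀ b)) = _
    rw [AlgEquiv.commutes]
    rfl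
  let : Algebra Γ(A, d.U) A.functionField := d.alg
  have := d.isFractionRing
  let : Algebra Γ(A, c.U) A.functionField := (σ.toRingHom.comp (germHom c.U c.gen_mem)).toAlgebra
  have : IsScalarTower Γ(A, c.U) Γ(A, d.U) A.functionField := IsScalarTower.of_algebraMap_eq' hσθ
  let ι : L₀ →+* A.functionField :=
    IsFractionRing.lift (g := σ.toRingHom.comp (germHom c.U c.gen_mem))
      (σ.toRingHom.injective.comp (germHom_injective c.gen_mem))
  let := ι.toAlgebra
  have : IsScalarTower Γ(A, c.U) L₀ A.functionField :=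
    IsScalarTower.of_algebraMap_eq fun b => (IsFractionRing.lift_algebraMap _ b).symm
  have hbc : IsBaseChange L₀
      (IsScalarTower.toAlgHom Γ(A, c.U) Γ(A, d.U) A.functionField).toLinearMap :=
    Algebra.IsAlgebraic.isBaseChange_of_isFractionRing Γ(A, c.U) Γ(A, d.U) L₀ A.functionField
  let e := hbc.equiv
  have hi : (algebraMap σ.fieldRange A.functionField).comp i.toRingHom =
      (RingEquiv.refl A.functionField).toRingHom.comp (algebraMap L₀ A.functionField) := by
    refine IsLocalization.ringHom_ext (nonZeroDivisors Γ(A, c.U)) (RingHom.ext fun b => ?_)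
    exact (hi₀ b).trans (IsFractionRing.lift_algebraMap (A := Γ(A, c.U)) (K := L₀)
      (g := σ.toRingHom.comp (germHom c.U c.gen_mem))
      (σ.toRingHom.injective.comp (germHom_injective c.gen_mem)) b).symm
  have : Module.Finite L₀ A.functionField := Module.Finite.equiv e
  refine ⟨Module.Finite.of_equiv_equiv i (RingEquiv.refl _) hi, ?_⟩
  rw [hcard, natCard_fibre_eq_finrank yA, e.finrank_eq,
    Algebra.finrank_eq_of_equiv_equiv i (RingEquiv.refl _) hi]

end Fermat.Agent.AbVar.Sch
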