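import Fermat.Agent.AbVar.Scheme.Cover

/-!
# Normalisation coordinates: their number is the relative dimension
-/

set_option autoImplicit false

noncomputable section

namespace Fermat.Agent.AbVar.Sch

open CategoryTheory CategoryTheory.Limits AlgebraicGeometry

universe u

/-- An algebra map out of polynomials with injective composite gives a transcendence basis as soon
as the target generates the field by quotients and is algebraic over the polynomials. -/
theorem trdeg_eq_of_chart {K B F : Type u} [Field K] [CommRing B] [Algebra K B] [Field F]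
    [Algebra K F] (ι : B →ₐ[K] F) {n : ℕ} (φ : MvPolynomial (Fin n) K →ₐ[K] B)
    (hinj : Function.Injective (ι.comp φ))
    (halg : ∀ b : B, ∃ p : Polynomial (MvPolynomial (Fin n) K),
      p ≠ 0 ∧ p.eval₂ (ι.comp φ).toRingHom (ι b) = 0)
    (hfrac : ∀ x : F, ∃ a b : B, x = ι a / ι b) :
    Algebra.trdeg K F = n := by
  set t : Fin n → F := fun i => ι (φ (MvPolynomial.X i)) with ht
  have hae : MvPolynomial.aeval t = ι.comp φ := MvPolynomial.algHom_ext fun i => by simp [ht]
  have hind : AlgebraicIndependent K t := by
    rw [algebraicIndependent_iff_injective_aeval, hae]; exact hinj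
  have halg' : Algebra.IsAlgebraic (Algebra.adjoin K (Set.range t)) F := by
    set S := Algebra.adjoin K (Set.range t)
    have key : ∀ b : B, IsAlgebraic S (ι b) := fun b => by
      obtain ⟨p, hp0, hp⟩ := halg b
      let ψ : MvPolynomial (Fin n) K →+* S := (MvPolynomial.aeval t).toRingHom.codRestrict S
        fun q => by
          show MvPolynomial.aeval t q ∈ Algebra.adjoin K (Set.range t)
          rw [Algebra.adjoin_range_eq_range_aeval]; exact ⟨q, rfl⟩
      have hψ : Function.Injective ψ := fun _ _ h =>
        algebraicIndependent_iff_injective_aeval.mp hind (congrArg Subtype.val h)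
      refine ⟨p.map ψ, (Polynomial.map_ne_zero_iff hψ).mpr hp0, ?_⟩
      rw [Polynomial.aeval_def, Polynomial.eval₂_map]
      refine (congrArg (fun h => p.eval₂ h (ι b)) (RingHom.ext fun q => ?_)).trans hp
      exact AlgHom.congr_fun hae q
    refine ⟨fun x => ?_⟩
    obtain ⟨a, b, rfl⟩ := hfrac x
    rw [div_eq_mul_inv]
    exact (key a).mul (IsAlgebraic.inv_iff.mpr (key b))
  have h := (hind.isTranscendenceBasis_iff_isAlgebraic.mpr halg').lift_cardinalMk_eq_trdeg
  simpa using h.symm

/-- An étale algebra over polynomials which is a domain contains them and is algebraic over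
them. -/
theorem injective_and_algebraic_of_etale {K B : Type u} [Field K] [CommRing B] [IsDomain B]
    [Algebra K B] {n : ℕ} (φ : MvPolynomial (Fin n) K →ₐ[K] B) (hφ : φ.Etale) :
    Function.Injective φ ∧ ∀ b : B, ∃ p : Polynomial (MvPolynomial (Fin n) K),
      p ≠ 0 ∧ p.eval₂ φ.toRingHom b = 0 := by
  let := φ.toRingHom.toAlgebra
  have : Algebra.Etale (MvPolynomial (Fin n) K) B := hφ
  have hinj : Function.Injective φ := by
    rw [injective_iff_map_eq_zero]
    intro q hq
    by_contra hq0
    have h1 : q • (1 : B) = q • 0 := by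
      rw [smul_zero, Algebra.smul_def, mul_one]; exact hq
    exact one_ne_zero ((smul_right_injective B hq0) h1)
  refine ⟨hinj, fun b => ?_⟩
  set P := MvPolynomial (Fin n) K
  set P₀ := FractionRing P
  have : Module.Finite P₀ (TensorProduct P P₀ B) := Algebra.FormallyUnramified.finite_of_free _ _
  let L := FractionRing B
  let α : P₀ →ₐ[P] L := IsFractionRing.liftAlgHom (g := Algebra.ofId P L) (by
    rw [show ⇑(Algebra.ofId P L) = ⇑(algebraMap B L) ∘ φ from rfl]
    exact (IsFractionRing.injective B L).comp hinj)
  let := α.toRingHom.toAlgebra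
  have : IsScalarTower P P₀ L := IsScalarTower.of_algebraMap_eq fun q => (α.commutes q).symm
  let μ : TensorProduct P P₀ B →ₐ[P₀] L :=
    Algebra.TensorProduct.lift (Algebra.ofId P₀ L) (IsScalarTower.toAlgHom P B L)
      fun _ _ => Commute.all _ _
  have h : IsIntegral P₀ (μ (1 ⊗ₜ b)) := (IsIntegral.of_finite P₀ _).map μ
  have h2 : IsAlgebraic P (algebraMap B L b) :=
    (IsFractionRing.isAlgebraic_iff P P₀ L).mpr (by simpa [μ] using h.isAlgebraic)
  obtain ⟨p, hp0, hp⟩ := h2
  refine ⟨p, hp0, ?_⟩
  rw [Polynomial.aeval_algebraMap_apply, map_eq_zero_iff _ (IsFractionRing.injective B L)] at hp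
  exact hp

variable {K : Type u} [Field K] {A : Scheme.{u}} [AlgebraicGeometry.IsIntegral A]
  (f : A ⟶ Spec (CommRingCat.of K))

/-- The inclusion of the ring of an open as an algebra map. -/
def germAlgHom (c : Chart A) :
    letI := fieldAlg f
    letI := (chartHom f c.U).toAlgebra
    Γ(A, c.U) →ₐ[K] A.functionField :=
  letI := fieldAlg f
  letI := (chartHom f c.U).toAlgebra
  { germHom c.U c.gen_mem with commutes' := RingHom.congr_fun (germHom_chartHom f c.gen_mem) }

theorem trdeg_functionField (g : ℕ) [SmoothOfRelativeDimension g f] :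
    letI := fieldAlg f
    Algebra.trdeg K A.functionField = g := by
  let := fieldAlg f
  obtain ⟨U, -, V, hV, hxV, e, h⟩ :=
    SmoothOfRelativeDimension.exists_isStandardSmoothOfRelativeDimension (n := g) (f := f)
      (genericPoint A)
  have hU : U = ⊤ := top_le_iff.mp fun y _ => by
    rw [show y = f (genericPoint A) from Subsingleton.elim (α := PrimeSpectrum K) _ _]
    exact e hxV
  subst hU
  let c : Chart A := ⟨V, hV, hxV⟩
  have := c.isDomain
  let := (chartHom f c.U).toAlgebra
  have : Algebra.IsStandardSmoothOfRelativeDimension g K Γ(A, c.U) := by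
    show RingHom.IsStandardSmoothOfRelativeDimension g (chartHom f c.U)
    rw [chartHom, CommRingCat.hom_comp,
      RingHom.isStandardSmoothOfRelativeDimension_respectsIso.cancel_left_isIso]
    exact h
  obtain ⟨φ, hφ⟩ :=
    Algebra.IsStandardSmoothOfRelativeDimension.exists_etale_mvPolynomial g K Γ(A, c.U)
  obtain ⟨hinj, halg⟩ := injective_and_algebraic_of_etale φ hφ
  refine trdeg_eq_of_chart (germAlgHom f c) φ ((germHom_injective c.gen_mem).comp hinj)
    (fun b => ?_) fun x => ?_
  · obtain ⟨p, hp0, hp⟩ := halg b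
    refine ⟨p, hp0, ?_⟩
    show p.eval₂ ((germHom c.U c.gen_mem).comp φ.toRingHom) (germHom c.U c.gen_mem b) = 0
    rw [← Polynomial.hom_eval₂, hp, map_zero]
  · let := c.alg
    have := c.isFractionRing
    obtain ⟨a, b, -, rfl⟩ := IsFractionRing.div_surjective (A := Γ(A, c.U)) x
    exact ⟨a, b, rfl⟩

/-- Normalisation coordinates of a chart. -/
theorem exists_normalisation [Smooth f] (g : ℕ) [SmoothOfRelativeDimension g f] (c : Chart A) :
    letI := fieldAlg f
    ∃ z : Fin g → chartRing f c, AlgebraicIndependent K (fun l => (z l : A.functionField)) ∧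
      ∀ a ∈ chartRing f c, IsIntegral
        (Algebra.adjoin K (Set.range fun l => (z l : A.functionField))) a := by
  let := fieldAlg f
  have := c.isDomain
  have : Algebra.FiniteType K (chartRing f c) :=
    (Subalgebra.fg_iff_finiteType _).mp (chartRing_fg f c)
  obtain ⟨s, φ, hinj, hint⟩ := exists_integral_inj_algHom_of_fg K (chartRing f c)
  have hP : ∀ a : chartRing f c, ∃ p : Polynomial (MvPolynomial (Fin s) K), p.Monic ∧
      p.eval₂ ((chartRing f c).val.comp φ).toRingHom a.1 = 0 := fun a => by
    obtain ⟨p, hp, hpa⟩ := hint a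
    refine ⟨p, hp, ?_⟩
    exact (Polynomial.hom_eval₂ p φ.toRingHom (chartRing f c).val.toRingHom a).symm.trans
      ((congrArg _ hpa).trans (map_zero _))
  have hs : s = g := by
    have h := trdeg_eq_of_chart (chartRing f c).val φ (Subtype.val_injective.comp hinj)
      (fun a => by obtain ⟨p, hp, hpa⟩ := hP a; exact ⟨p, hp.ne_zero, hpa⟩) fun x => by
        obtain ⟨a, ha, b, hb, -, rfl⟩ := chartRing_frac f c x
        exact ⟨⟨a, ha⟩, ⟨b, hb⟩, rfl⟩
    rw [trdeg_functionField f g] at h
    exact_mod_cast h.symm
  subst hs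
  set z : Fin s → A.functionField := fun l => (φ (MvPolynomial.X l) : A.functionField) with hz
  have hae : MvPolynomial.aeval z = (chartRing f c).val.comp φ :=
    MvPolynomial.algHom_ext fun i => by simp [hz]
  refine ⟨fun l => φ (MvPolynomial.X l), ?_, fun a ha => ?_⟩
  · show AlgebraicIndependent K z
    rw [algebraicIndependent_iff_injective_aeval, hae]
    exact Subtype.val_injective.comp hinj
  · obtain ⟨p, hp, hpa⟩ := hP ⟨a, ha⟩
    let ψ : MvPolynomial (Fin s) K →+* Algebra.adjoin K (Set.range z) :=
      (MvPolynomial.aeval z).toRingHom.codRestrict (Algebra.adjoin K (Set.range z)) fun q => by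
        show MvPolynomial.aeval z q ∈ Algebra.adjoin K (Set.range z)
        rw [Algebra.adjoin_range_eq_range_aeval]; exact ⟨q, rfl⟩
    refine ⟨p.map ψ, hp.map ψ, ?_⟩
    rw [Polynomial.eval₂_map]
    refine (congrArg (fun h => p.eval₂ h a) (RingHom.ext fun q => ?_)).trans hpa
    exact AlgHom.congr_fun hae q

end Fermat.Agent.AbVar.Sch
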