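import Fermat.Agent.AbVar.Scheme.Points

/-!
# The groups of points of a commutative relative group law
-/

set_option autoImplicit false

noncomputable section

namespace Fermat.Agent.AbVar.Sch

open CategoryTheory CategoryTheory.Limits AlgebraicGeometry NeronModelInfra GoodReductionJacobian

universe u

variable {K : Type u} [Field K] {A : Scheme.{u}} {f : A ⟶ Spec (CommRingCat.of K)}
  (L : RelativeGroupLaw K f)

/-- The group of points over a base. -/
@[reducible] def ptsGroup (hc : L.IsCommutative) {T : Scheme.{u}}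
    (t : T ⟶ Spec (CommRingCat.of K)) : CommGroup (SchemeHomOver t f) :=
  { L.pointGroup t with mul_comm := fun x y => hc t x y }

variable (hc : L.IsCommutative)

/-- Composition as a homomorphism of groups of points. -/
def compHom {T T' : Scheme.{u}} {t : T ⟶ Spec (CommRingCat.of K)}
    {t' : T' ⟶ Spec (CommRingCat.of K)} (ψ : T' ⟶ T) (hψ : ψ ≫ t = t') :
    letI := ptsGroup L hc t
    letI := ptsGroup L hc t'
    SchemeHomOver t f →* SchemeHomOver t' f :=
  letI := ptsGroup L hc t
  letI := ptsGroup L hc t'
  MonoidHom.mk' (schemeHomOverComp ψ hψ) (L.mul_natural t t' ψ hψ)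

theorem nsmul_eq_pow {T : Scheme.{u}} (t : T ⟶ Spec (CommRingCat.of K)) (n : ℕ)
    (x : SchemeHomOver t f) :
    letI := ptsGroup L hc t
    L.nsmul t n x = x ^ n := by
  let := ptsGroup L hc t
  induction n with
  | zero => rw [pow_zero]; rfl
  | succ n ih => rw [pow_succ, L.nsmul_succ, ih]; rfl

include hc in
theorem comp_inv {T T' : Scheme.{u}} (t : T ⟶ Spec (CommRingCat.of K))
    (t' : T' ⟶ Spec (CommRingCat.of K)) (ψ : T' ⟶ T) (hψ : ψ ≫ t = t') (x : SchemeHomOver t f) :
    schemeHomOverComp ψ hψ (L.inv t x) = L.inv t' (schemeHomOverComp ψ hψ x) := by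
  let := ptsGroup L hc t
  let := ptsGroup L hc t'
  exact map_inv (compHom L hc ψ hψ) x

/-- The inversion of the group scheme. -/
def negMap : A ⟶ A := (L.inv f RelativeGroupLaw.idPoint).1

theorem negMap_over : negMap L ≫ f = f := (L.inv f RelativeGroupLaw.idPoint).2

include hc in
theorem inv_coe {T : Scheme.{u}} {t : T ⟶ Spec (CommRingCat.of K)} (x : SchemeHomOver t f) :
    (L.inv t x).1 = x.1 ≫ negMap L := by
  have h := comp_inv L hc f t x.1 x.2 RelativeGroupLaw.idPoint
  rw [show schemeHomOverComp x.1 x.2 RelativeGroupLaw.idPoint = x from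
    Subtype.ext (Category.comp_id _)] at h
  exact (congrArg Subtype.val h).symm

include hc in
theorem negMap_negMap : negMap L ≫ negMap L = 𝟙 A := by
  have h := inv_coe L hc (L.inv f RelativeGroupLaw.idPoint)
  let := ptsGroup L hc f
  rw [show L.inv f (L.inv f RelativeGroupLaw.idPoint) = RelativeGroupLaw.idPoint from
    inv_inv (RelativeGroupLaw.idPoint : SchemeHomOver f f)] at h
  exact h.symm

theorem nsmul_coe {T : Scheme.{u}} {t : T ⟶ Spec (CommRingCat.of K)} (n : ℕ)
    (x : SchemeHomOver t f) : (L.nsmul t n x).1 = x.1 ≫ L.schemeNsmul n := by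
  have h := L.nsmul_natural f t x.1 x.2 n RelativeGroupLaw.idPoint
  rw [show schemeHomOverComp x.1 x.2 RelativeGroupLaw.idPoint = x from
    Subtype.ext (Category.comp_id _)] at h
  exact (congrArg Subtype.val h).symm

/-- The additive group of points of a `K`-algebra. -/
abbrev Pts (R : Type u) [CommRing R] [Algebra K R] (f : A ⟶ Spec (CommRingCat.of K)) : Type u :=
  Additive (SchemeHomOver (specK (algebraMap K R)) f)

/-- The point of the additive group given by a morphism. -/
def Pts.mk {R : Type u} [CommRing R] [Algebra K R]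
    (x : SchemeHomOver (specK (algebraMap K R)) f) : Pts R f :=
  Additive.ofMul x

/-- The morphism underlying a point. -/
abbrev Pts.hom {R : Type u} [CommRing R] [Algebra K R] (P : Pts R f) :
    Spec (CommRingCat.of R) ⟶ A :=
  (Additive.toMul P).1

theorem Pts.ext {R : Type u} [CommRing R] [Algebra K R] {P Q : Pts R f} (h : P.hom = Q.hom) :
    P = Q :=
  Additive.toMul.injective (Subtype.ext h)

theorem specK_alg {R S : Type u} [CommRing R] [Algebra K R] [CommRing S] [Algebra K S]
    (s : R →ₐ[K] S) :
    Spec.map (CommRingCat.ofHom s.toRingHom) ≫ specK (algebraMap K R) = specK (algebraMap K S) := by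
  rw [specK_comp, show s.toRingHom.comp (algebraMap K R) = algebraMap K S from s.comp_algebraMap]

/-- The group structure on the points. -/
@[reducible] def Pts.group (R : Type u) [CommRing R] [Algebra K R] : AddCommGroup (Pts R f) :=
  @Additive.addCommGroup _ (ptsGroup L hc _)

/-- Functoriality of the points. -/
def Pts.map {R S : Type u} [CommRing R] [Algebra K R] [CommRing S] [Algebra K S]
    (s : R →ₐ[K] S) :
    letI := Pts.group L hc R
    letI := Pts.group L hc S
    Pts R f →+ Pts S f :=
  letI := ptsGroup L hc (specK (algebraMap K R))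
  letI := ptsGroup L hc (specK (algebraMap K S))
  MonoidHom.toAdditive (compHom L hc _ (specK_alg s))

theorem Pts.map_hom {R S : Type u} [CommRing R] [Algebra K R] [CommRing S] [Algebra K S]
    (s : R →ₐ[K] S) (P : Pts R f) :
    (Pts.map L hc s P).hom = Spec.map (CommRingCat.ofHom s.toRingHom) ≫ P.hom :=
  rfl

theorem Pts.nsmul_hom {R : Type u} [CommRing R] [Algebra K R] (n : ℕ) (P : Pts R f) :
    letI := Pts.group L hc R
    (n • P).hom = P.hom ≫ L.schemeNsmul n := by
  let := ptsGroup L hc (specK (algebraMap K R))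
  show ((Additive.toMul P) ^ n).1 = _
  rw [← nsmul_eq_pow, nsmul_coe]

theorem Pts.neg_hom {R : Type u} [CommRing R] [Algebra K R] (P : Pts R f) :
    letI := Pts.group L hc R
    (-P).hom = P.hom ≫ negMap L :=
  inv_coe L hc (Additive.toMul P)

/-- Extension along a valuation ring, as an isomorphism of groups, and the reduction. -/
theorem exists_red [IsProper f] {F k : Type u} [Field F] [Algebra K F] [Field k] [Algebra K k]
    (V : ValuationSubring F) (hV : ∀ c : K, algebraMap K F c ∈ V) (π : V →+* k)
    (hπ : ∀ c : K, π ⟨algebraMap K F c, hV c⟩ = algebraMap K k c) :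
    letI := Pts.group L hc F
    letI := Pts.group L hc k
    ∃ φ : Pts F f →+ Pts k f, ∀ (P : Pts F f)
      (m : SchemeHomOver (specK (valHom V (algebraMap K F) hV)) f),
      Spec.map (CommRingCat.ofHom V.subtype) ≫ m.1 = P.hom →
        (φ P).hom = Spec.map (CommRingCat.ofHom π) ≫ m.1 := by
  let := ptsGroup L hc (specK (algebraMap K F))
  let := ptsGroup L hc (specK (algebraMap K k))
  let := ptsGroup L hc (specK (valHom V (algebraMap K F) hV))
  have h1 : Spec.map (CommRingCat.ofHom V.subtype) ≫ specK (valHom V (algebraMap K F) hV) =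
      specK (algebraMap K F) := by rw [specK_comp]; rfl
  have h2 : Spec.map (CommRingCat.ofHom π) ≫ specK (valHom V (algebraMap K F) hV) =
      specK (algebraMap K k) := by
    rw [specK_comp, show π.comp (valHom V (algebraMap K F) hV) = algebraMap K k from RingHom.ext hπ]
  let ρ := compHom L hc _ h1
  have hρ : Function.Bijective ρ := by
    refine ⟨fun m m' h => ?_, fun x => ?_⟩
    · obtain ⟨m₀, -, hu⟩ := existsUnique_extend f V _ hV (ρ m)
      exact (hu m rfl).trans (hu m' (congrArg Subtype.val h).symm).symm
    · obtain ⟨m₀, hm₀, -⟩ := existsUnique_extend f V _ hV x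
      exact ⟨m₀, Subtype.ext hm₀⟩
  refine ⟨MonoidHom.toAdditive
    ((compHom L hc _ h2).comp (MulEquiv.ofBijective ρ hρ).symm.toMonoidHom), fun P m hm => ?_⟩
  show Spec.map (CommRingCat.ofHom π) ≫ ((MulEquiv.ofBijective ρ hρ).symm (Additive.toMul P)).1 = _
  rw [show Additive.toMul P = MulEquiv.ofBijective ρ hρ m from Subtype.ext hm.symm,
    MulEquiv.symm_apply_apply]

end Fermat.Agent.AbVar.Sch
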