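import Mathlib
import Fermat.Prelude.Def_GoodReductionJacobian_RelativeGroupLawKernel

/-!
# Points of a scheme over a field in affine charts and along valuation rings
-/

set_option autoImplicit false

noncomputable section

namespace Fermat.Agent.AbVar.Sch

open CategoryTheory CategoryTheory.Limits AlgebraicGeometry NeronModelInfra GoodReductionJacobian

universe u

variable {K : Type u} [Field K]

/-- The structure map of the spectrum of a ring receiving `K`. -/
abbrev specK {R : Type u} [CommRing R] (ι : K →+* R) :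
    Spec (CommRingCat.of R) ⟶ Spec (CommRingCat.of K) :=
  Spec.map (CommRingCat.ofHom ι)

theorem specK_comp {R S : Type u} [CommRing R] [CommRing S] (ι : K →+* R) (s : R →+* S) :
    Spec.map (CommRingCat.ofHom s) ≫ specK ι = specK (s.comp ι) := by
  rw [← Spec.map_comp]; rfl

theorem specMap_ofHom_inj {R S : Type u} [CommRing R] [CommRing S] {s t : R →+* S}
    (h : Spec.map (CommRingCat.ofHom s) = Spec.map (CommRingCat.ofHom t)) : s = t :=
  congrArg CommRingCat.Hom.hom (Spec.map_injective h)

theorem specMap_ofHom_comp {R S T : Type u} [CommRing R] [CommRing S] [CommRing T] (s : R →+* S)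
    (t : S →+* T) :
    Spec.map (CommRingCat.ofHom t) ≫ Spec.map (CommRingCat.ofHom s) =
      Spec.map (CommRingCat.ofHom (t.comp s)) := by
  rw [← Spec.map_comp]; rfl

variable {A : Scheme.{u}} (f : A ⟶ Spec (CommRingCat.of K))

/-- The map of `K` into the sections over an open. -/
def chartHom (U : A.Opens) : K →+* Γ(A, U) :=
  ((Scheme.ΓSpecIso (CommRingCat.of K)).inv ≫ f.appLE ⊤ U (le_top.trans f.preimage_top.ge)).hom

theorem fromSpec_comp {U : A.Opens} (hU : IsAffineOpen U) :
    hU.fromSpec ≫ f = specK (chartHom f U) := by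
  rw [← IsAffineOpen.SpecMap_appLE_fromSpec f (isAffineOpen_top _) hU (le_top.trans f.preimage_top.ge),
    IsAffineOpen.fromSpec_top, Scheme.isoSpec_Spec_inv, ← Spec.map_comp]
  rfl

theorem chartHom_res {U V : A.Opens} (h : V ≤ U) :
    ((A.presheaf.map (homOfLE h).op).hom).comp (chartHom f U) = chartHom f V := by
  rw [chartHom, chartHom, ← CommRingCat.hom_comp, Category.assoc, Scheme.Hom.appLE_map]

/-- The point given by a map out of the ring of an affine open. -/
def chartPt {U : A.Opens} (hU : IsAffineOpen U) {R : Type u} [CommRing R] {ι : K →+* R}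
    (θ : Γ(A, U) →+* R) (h : θ.comp (chartHom f U) = ι) : SchemeHomOver (specK ι) f :=
  ⟨Spec.map (CommRingCat.ofHom θ) ≫ hU.fromSpec, by
    rw [Category.assoc, fromSpec_comp, specK_comp, h]⟩

theorem chartHom_of_comp {U : A.Opens} (hU : IsAffineOpen U) {R : Type u} [CommRing R]
    {ι : K →+* R} (θ : Γ(A, U) →+* R) (x : SchemeHomOver (specK ι) f)
    (h : Spec.map (CommRingCat.ofHom θ) ≫ hU.fromSpec = x.1) : θ.comp (chartHom f U) = ι := by
  refine specMap_ofHom_inj ?_
  show _ = specK ι
  rw [← specMap_ofHom_comp, ← show x.1 ≫ f = specK ι from x.2, ← h, Category.assoc,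
    fromSpec_comp f hU]

theorem range_chartPt_subset {U : A.Opens} (hU : IsAffineOpen U) {R : Type u} [CommRing R]
    (θ : Γ(A, U) →+* R) :
    Set.range (Spec.map (CommRingCat.ofHom θ) ≫ hU.fromSpec) ⊆ (U : Set A) := by
  rintro _ ⟨y, rfl⟩
  rw [← hU.range_fromSpec]
  exact ⟨_, rfl⟩

theorem chartPt_injective {U : A.Opens} (hU : IsAffineOpen U) {R : Type u} [CommRing R]
    {θ θ' : Γ(A, U) →+* R}
    (h : Spec.map (CommRingCat.ofHom θ) ≫ hU.fromSpec =
      Spec.map (CommRingCat.ofHom θ') ≫ hU.fromSpec) : θ = θ' :=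
  specMap_ofHom_inj ((cancel_mono hU.fromSpec).mp h)

/-- A morphism landing in an affine open comes from a map of rings. -/
theorem exists_chartHom {U : A.Opens} (hU : IsAffineOpen U) {R : Type u} [CommRing R]
    (x : Spec (CommRingCat.of R) ⟶ A) (h : Set.range x ⊆ (U : Set A)) :
    ∃ θ : Γ(A, U) →+* R, Spec.map (CommRingCat.ofHom θ) ≫ hU.fromSpec = x := by
  obtain ⟨θ, hθ⟩ := Spec.map_surjective (IsOpenImmersion.lift hU.fromSpec x (by
    rwa [hU.range_fromSpec]))
  refine ⟨θ.hom, ?_⟩
  rw [CommRingCat.ofHom_hom, hθ, IsOpenImmersion.lift_fac]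

theorem exists_chartPt {U : A.Opens} (hU : IsAffineOpen U) {R : Type u} [CommRing R]
    {ι : K →+* R} (x : SchemeHomOver (specK ι) f) (h : Set.range x.1 ⊆ (U : Set A)) :
    ∃ θ : Γ(A, U) →+* R, ∃ hθ : θ.comp (chartHom f U) = ι, chartPt f hU θ hθ = x := by
  obtain ⟨θ, hθ⟩ := exists_chartHom hU x.1 h
  exact ⟨θ, chartHom_of_comp f hU θ x hθ, Subtype.ext hθ⟩

/-- Restriction to a smaller affine open does not change the point. -/
theorem chartPt_res {U V : A.Opens} (hU : IsAffineOpen U) (hV : IsAffineOpen V) (h : V ≤ U)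
    {R : Type u} [CommRing R] (θ : Γ(A, V) →+* R) :
    Spec.map (CommRingCat.ofHom (θ.comp (A.presheaf.map (homOfLE h).op).hom)) ≫ hU.fromSpec =
      Spec.map (CommRingCat.ofHom θ) ≫ hV.fromSpec := by
  rw [← specMap_ofHom_comp, Category.assoc, CommRingCat.ofHom_hom, IsAffineOpen.map_fromSpec]

/-- An open containing the image of the closed point of a local scheme contains the image. -/
theorem range_subset_of_closedPoint_mem {R : Type u} [CommRing R] [IsLocalRing R]
    (m : Spec (CommRingCat.of R) ⟶ A) {U : A.Opens}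
    (h : m (IsLocalRing.closedPoint R) ∈ U) : Set.range m ⊆ (U : Set A) := by
  rintro _ ⟨y, rfl⟩
  exact ((IsLocalRing.specializes_closedPoint y).map m.continuous).mem_open U.isOpen h

theorem range_subset_of_mem {R : Type u} [Field R] (m : Spec (CommRingCat.of R) ⟶ A) {U : A.Opens}
    (y : Spec (CommRingCat.of R)) (h : m y ∈ U) : Set.range m ⊆ (U : Set A) :=
  range_subset_of_closedPoint_mem m (by
    rwa [show IsLocalRing.closedPoint R = y from Subsingleton.elim (α := PrimeSpectrum R) _ _])

/-- `K` inside a valuation ring. -/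
abbrev valHom {F : Type u} [Field F] (V : ValuationSubring F) (ι : K →+* F) (hV : ∀ c, ι c ∈ V) :
    K →+* V :=
  ι.codRestrict V hV

/-- The valuative criterion: a point over a field extends uniquely over a valuation ring. -/
theorem existsUnique_extend [IsProper f] {F : Type u} [Field F] (V : ValuationSubring F)
    (ι : K →+* F) (hV : ∀ c, ι c ∈ V) (x : SchemeHomOver (specK ι) f) :
    ∃! m : SchemeHomOver (specK (valHom V ι hV)) f,
      Spec.map (CommRingCat.ofHom V.subtype) ≫ m.1 = x.1 := by
  have hf : ValuativeCriterion f := by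
    have h : (@IsProper) f := ‹IsProper f›
    rw [IsProper.eq_valuativeCriterion] at h
    exact h.1.1.1
  have w : x.1 ≫ f =
      Spec.map (CommRingCat.ofHom V.subtype) ≫ specK (valHom V ι hV) := by
    rw [x.2, specK_comp]; rfl
  let S : ValuativeCommSq f :=
    { R := V, K := F, i₁ := x.1, i₂ := specK (valHom V ι hV), commSq := ⟨w⟩ }
  obtain ⟨hu⟩ := hf S
  refine ⟨⟨hu.default.l, hu.default.fac_right⟩, hu.default.fac_left, fun m hm => ?_⟩
  have := congrArg CommSq.LiftStruct.l (hu.uniq ⟨m.1, hm, m.2⟩)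
  exact Subtype.ext this

end Fermat.Agent.AbVar.Sch
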