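import Fermat.Agent.AbVar.Scheme.Group

/-!
# Tangent vectors: the group law is the addition, so `[n]` is injective on them
-/

set_option autoImplicit false

noncomputable section

namespace Fermat.Agent.AbVar.Sch

open CategoryTheory CategoryTheory.Limits AlgebraicGeometry NeronModelInfra GoodReductionJacobian
open TrivSqZeroExt (fst snd inl inr fstHom inlAlgHom)

universe u

variable {K : Type u} [Field K]

section Tsze

variable {M : Type u} [AddCommGroup M] [Module K M] [Module Kᵐᵒᵖ M] [IsCentralScalar K M]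

/-- Square-zero extensions of a field have one point. -/
theorem comap_fst_eq (y : PrimeSpectrum (TrivSqZeroExt K M)) :
    PrimeSpectrum.comap (fstHom K K M).toRingHom (IsLocalRing.closedPoint K) = y := by
  have hsq : ∀ x : TrivSqZeroExt K M, fst x = 0 → x * x = 0 := fun x hx =>
    TrivSqZeroExt.ext (by simp [hx]) (by simp [hx])
  have : (RingHom.ker (fstHom K K M).toRingHom).IsMaximal :=
    RingHom.ker_isMaximal_of_surjective _ fun a => ⟨inl a, TrivSqZeroExt.fst_inl M a⟩
  have hle : RingHom.ker (fstHom K K M).toRingHom ≤ y.asIdeal := fun x hx =>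
    (y.isPrime.mem_or_mem (show x * x ∈ y.asIdeal by rw [hsq x hx]; exact zero_mem _)).elim id id
  have he := Ideal.IsMaximal.eq_of_le this y.isPrime.ne_top hle
  ext1
  rw [← he]
  show Ideal.comap _ (IsLocalRing.maximalIdeal K) = _
  rw [IsLocalRing.maximalIdeal_eq_bot]
  rfl

end Tsze

variable {A : Scheme.{u}} {f : A ⟶ Spec (CommRingCat.of K)} (L : RelativeGroupLaw K f)
  (hc : L.IsCommutative) {U : A.Opens} (hU : IsAffineOpen U)

local notation "tsze" => TrivSqZeroExt

include hc in
/-- Two points over a square-zero extension reducing to the same point give the same map on the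
functions of a chart up to additivity: the vertical parts add. -/
theorem snd_add {M : Type u} [AddCommGroup M] [Module K M] [Module Kᵐᵒᵖ M] [IsCentralScalar K M]
    (hU0 : (letI := Pts.group L hc K; (0 : Pts K f)).hom (IsLocalRing.closedPoint K) ∈ U)
    (P Q : Pts (tsze K M) f)
    (hP : letI := Pts.group L hc K; Pts.map L hc (fstHom K K M) P = 0)
    (hQ : letI := Pts.group L hc K; Pts.map L hc (fstHom K K M) Q = 0)
    (p q r : Γ(A, U) →+* tsze K M)
    (hp : Spec.map (CommRingCat.ofHom p) ≫ hU.fromSpec = P.hom)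
    (hq : Spec.map (CommRingCat.ofHom q) ≫ hU.fromSpec = Q.hom)
    (hr : letI := Pts.group L hc (tsze K M);
      Spec.map (CommRingCat.ofHom r) ≫ hU.fromSpec = (P + Q).hom) (a : Γ(A, U)) :
    snd (r a) = snd (p a) + snd (q a) := by
  let := Pts.group L hc K
  let := Pts.group L hc (tsze K M)
  let := Pts.group L hc (tsze K (M × M))
  let i₁ := TrivSqZeroExt.map (LinearMap.inl K M M)
  let i₂ := TrivSqZeroExt.map (LinearMap.inr K M M)
  let p₁ := TrivSqZeroExt.map (LinearMap.fst K M M)
  let p₂ := TrivSqZeroExt.map (LinearMap.snd K M M)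
  let s := TrivSqZeroExt.map (LinearMap.fst K M M + LinearMap.snd K M M)
  let Ω := Pts.map L hc i₁ P + Pts.map L hc i₂ Q
  have hmap : ∀ {R S T : Type u} [CommRing R] [Algebra K R] [CommRing S] [Algebra K S] [CommRing T]
      [Algebra K T] (φ : R →ₐ[K] S) (ψ : S →ₐ[K] T) (X : Pts R f),
      Pts.map L hc ψ (Pts.map L hc φ X) = Pts.map L hc (ψ.comp φ) X := fun φ ψ X => Pts.ext (by
    rw [Pts.map_hom, Pts.map_hom, Pts.map_hom, ← Category.assoc, specMap_ofHom_comp]; rfl)
  have hid : ∀ (φ : tsze K M →ₐ[K] tsze K M) (X : Pts (tsze K M) f),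
      (∀ x, φ x = x) → Pts.map L hc φ X = X := fun φ X h => Pts.ext (by
    rw [Pts.map_hom, show φ.toRingHom = RingHom.id _ from RingHom.ext h]
    exact (congrArg (· ≫ X.hom) (Spec.map_id _)).trans (Category.id_comp _))
  have hz : ∀ (φ : tsze K M →ₐ[K] tsze K M) (X : Pts (tsze K M) f),
      (∀ x, φ x = inl (fst x)) → Pts.map L hc (fstHom K K M) X = 0 → Pts.map L hc φ X = 0 :=
    fun φ X h hX => by
      rw [show φ = (inlAlgHom K K M).comp (fstHom K K M) from AlgHom.ext h, ← hmap, hX, map_zero]
  have h₁ : Pts.map L hc p₁ Ω = P := by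
    rw [map_add, hmap, hmap, hid _ P fun x => TrivSqZeroExt.ext (by simp [p₁, i₁]) (by simp [p₁, i₁]),
      hz _ Q (fun x => TrivSqZeroExt.ext (by simp [p₁, i₂]) (by simp [p₁, i₂])) hQ, add_zero]
  have h₂ : Pts.map L hc p₂ Ω = Q := by
    rw [map_add, hmap, hmap, hid _ Q fun x => TrivSqZeroExt.ext (by simp [p₂, i₂]) (by simp [p₂, i₂]),
      hz _ P (fun x => TrivSqZeroExt.ext (by simp [p₂, i₁]) (by simp [p₂, i₁])) hP, zero_add]
  have hs : Pts.map L hc s Ω = P + Q := by
    rw [map_add, hmap, hmap, hid _ P fun x => TrivSqZeroExt.ext (by simp [s, i₁]) (by simp [s, i₁]),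
      hid _ Q fun x => TrivSqZeroExt.ext (by simp [s, i₂]) (by simp [s, i₂])]
  obtain ⟨ω, hω⟩ := exists_chartHom hU Ω.hom (by
    rintro _ ⟨y, rfl⟩
    have h0 : Pts.map L hc (fstHom K K (M × M)) Ω = 0 := by
      rw [map_add, hmap, hmap,
        show (fstHom K K (M × M)).comp i₁ = fstHom K K M from AlgHom.ext fun x => by simp [i₁],
        show (fstHom K K (M × M)).comp i₂ = fstHom K K M from AlgHom.ext fun x => by simp [i₂],
        hP, hQ, add_zero]
    rw [← comap_fst_eq y]
    show (Spec.map (CommRingCat.ofHom (fstHom K K (M × M)).toRingHom) ≫ Ω.hom)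
      (IsLocalRing.closedPoint K) ∈ U
    rw [← Pts.map_hom L hc, h0]
    exact hU0)
  have key : ∀ (φ : tsze K (M × M) →ₐ[K] tsze K M) (θ : Γ(A, U) →+* tsze K M),
      Spec.map (CommRingCat.ofHom θ) ≫ hU.fromSpec = (Pts.map L hc φ Ω).hom → θ a = φ (ω a) :=
    fun φ θ h => RingHom.congr_fun (chartPt_injective hU (θ' := φ.toRingHom.comp ω) (by
      rw [h, Pts.map_hom, ← hω, ← Category.assoc, specMap_ofHom_comp])) a
  rw [key p₁ p (by rw [hp, h₁]), key p₂ q (by rw [hq, h₂]), key s r (by rw [hr, hs])]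
  simp [p₁, p₂, s]

include hc in
/-- A tangent vector at the origin killed by an invertible integer is zero. -/
theorem eq_zero_of_nsmul_tsze (n : ℕ) (hn : (n : K) ≠ 0) (P : Pts (tsze K K) f)
    (hP : letI := Pts.group L hc K; Pts.map L hc (fstHom K K K) P = 0)
    (h : letI := Pts.group L hc (tsze K K); n • P = 0) :
    letI := Pts.group L hc (tsze K K)
    P = 0 := by
  let := Pts.group L hc K
  let := Pts.group L hc (tsze K K)
  obtain ⟨_, ⟨U, hU, rfl⟩, hU0, -⟩ := A.isBasis_affineOpens.exists_subset_of_mem_open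
    (Set.mem_univ ((0 : Pts K f).hom (IsLocalRing.closedPoint K))) isOpen_univ
  have hker : ∀ m : ℕ, Pts.map L hc (fstHom K K K) (m • P) = 0 := fun m => by
    rw [map_nsmul, hP, smul_zero]
  have hr : ∀ m : ℕ, ∃ r : Γ(A, U) →+* tsze K K,
      Spec.map (CommRingCat.ofHom r) ≫ hU.fromSpec = (m • P).hom := fun m =>
    exists_chartHom hU _ (by
      rintro _ ⟨y, rfl⟩
      rw [← comap_fst_eq y]
      show (Spec.map (CommRingCat.ofHom (fstHom K K K).toRingHom) ≫ (m • P).hom)
        (IsLocalRing.closedPoint K) ∈ U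
      rw [← Pts.map_hom L hc, hker m]
      exact hU0)
  choose r hr using hr
  have hrm : ∀ m a, snd (r m a) = (m : K) * snd (r 1 a) := by
    intro m a
    induction m with
    | zero =>
      obtain ⟨o, ho⟩ := exists_chartHom hU (0 : Pts K f).hom (range_subset_of_mem _ _ hU0)
      have e : r 0 = (inlAlgHom K K K).toRingHom.comp o := chartPt_injective hU (by
        rw [hr 0, zero_smul, ← specMap_ofHom_comp, Category.assoc, ho, ← Pts.map_hom L hc,
          map_zero])
      rw [e, Nat.cast_zero, zero_mul]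
      exact TrivSqZeroExt.snd_inl K _
    | succ m ih =>
      rw [snd_add L hc hU hU0 (m • P) P (hker m) hP (r m) (r 1) (r (m + 1)) (hr m)
        (by rw [hr 1, one_smul]) (by rw [hr (m + 1), succ_nsmul]) a, ih, Nat.cast_succ]
      ring
  have h1 : r 1 = r 0 := by
    refine RingHom.ext fun a => ?_
    have hnz : r n = r 0 := chartPt_injective hU (by rw [hr n, hr 0, h, zero_smul])
    have hsnd : snd (r 1 a) = 0 := by
      have := hrm n a
      rw [hnz, hrm 0 a, Nat.cast_zero, zero_mul] at this
      exact (mul_eq_zero.mp this.symm).resolve_left hn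
    refine TrivSqZeroExt.ext ?_ (by rw [hsnd, hrm 0 a, Nat.cast_zero, zero_mul])
    have e : ∀ m, (fstHom K K K).toRingHom.comp (r m) = (fstHom K K K).toRingHom.comp (r 0) :=
      fun m => chartPt_injective hU (by
        rw [← specMap_ofHom_comp, ← specMap_ofHom_comp, Category.assoc, Category.assoc, hr m, hr 0,
          ← Pts.map_hom L hc, ← Pts.map_hom L hc, hker m, hker 0])
    exact RingHom.congr_fun (e 1) a
  refine Pts.ext ?_
  have := hr 1
  rw [one_smul, h1, hr 0, zero_smul] at this
  exact this.symm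

end Fermat.Agent.AbVar.Sch
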