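import Fermat.Agent.AbVar.Scheme.Tangent
import Fermat.Agent.AbVar.Scheme.Field
import Fermat.Agent.AbVar.Scheme.Integral

/-!
# Multiplication by an invertible integer is formally unramified
-/

set_option autoImplicit false

noncomputable section

namespace Fermat.Agent.AbVar.Sch

open CategoryTheory CategoryTheory.Limits AlgebraicGeometry NeronModelInfra GoodReductionJacobian
open TrivSqZeroExt (fst snd inl inr fstHom inlAlgHom)

universe u

variable {K : Type u} [Field K] {A : Scheme.{u}} {f : A ⟶ Spec (CommRingCat.of K)}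
  (L : RelativeGroupLaw K f)

include L in
/-- A tangent vector killed by multiplication by an invertible integer is zero. -/
theorem derivation_eq_zero (hc : L.IsCommutative) (n : ℕ) (hn : (n : K) ≠ 0) {U V : A.Opens}
    (hU : IsAffineOpen U) (hV : IsAffineOpen V) (hle : V ≤ L.schemeNsmul n ⁻¹ᵁ U)
    (x : Γ(A, V) →+* K) (hx : x.comp (chartHom f V) = RingHom.id K) (D : Γ(A, V) →+ K)
    (hD : ∀ a b, D (a * b) = x a * D b + x b * D a) (hDK : ∀ c, D (chartHom f V c) = 0)
    (hDθ : ∀ b, D ((L.schemeNsmul n).appLE U V hle b) = 0) : D = 0 := by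
  have hD1 : D 1 = 0 := by rw [← map_one (chartHom f V)]; exact hDK 1
  let ψ : Γ(A, V) →+* TrivSqZeroExt K K :=
    { toFun := fun a => inl (x a) + inr (D a)
      map_one' := by simp [hD1]
      map_mul' := fun a b => TrivSqZeroExt.ext (by simp) (by simp [hD, mul_comm])
      map_zero' := by simp
      map_add' := fun a b => TrivSqZeroExt.ext (by simp) (by simp) }
  let ψ₀ : Γ(A, V) →+* TrivSqZeroExt K K := (inlAlgHom K K K).toRingHom.comp x
  have h0 : ψ₀.comp (chartHom f V) = algebraMap K (TrivSqZeroExt K K) := RingHom.ext fun c => by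
    show inl (x (chartHom f V c)) = _
    rw [← RingHom.comp_apply, hx]; rfl
  have h1 : ψ.comp (chartHom f V) = algebraMap K (TrivSqZeroExt K K) := RingHom.ext fun c => by
    show inl (x (chartHom f V c)) + inr (D (chartHom f V c)) = _
    rw [← RingHom.comp_apply, hx, hDK, TrivSqZeroExt.inr_zero, add_zero]; rfl
  let := Pts.group L hc K
  let := Pts.group L hc (TrivSqZeroExt K K)
  let P : Pts (TrivSqZeroExt K K) f := Pts.mk (chartPt f hV ψ h1)
  let P₀ : Pts (TrivSqZeroExt K K) f := Pts.mk (chartPt f hV ψ₀ h0)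
  have key : ∀ θ : Γ(A, V) →+* TrivSqZeroExt K K,
      (Spec.map (CommRingCat.ofHom θ) ≫ hV.fromSpec) ≫ L.schemeNsmul n =
        Spec.map (CommRingCat.ofHom (θ.comp ((L.schemeNsmul n).appLE U V hle).hom)) ≫
          hU.fromSpec := fun θ => by
    rw [← specMap_ofHom_comp, Category.assoc, Category.assoc, CommRingCat.ofHom_hom,
      IsAffineOpen.SpecMap_appLE_fromSpec]
  have hn' : n • (P - P₀) = 0 := by
    rw [smul_sub, sub_eq_zero]
    refine Pts.ext ?_
    rw [Pts.nsmul_hom L hc, Pts.nsmul_hom L hc]
    show (Spec.map _ ≫ _) ≫ _ = (Spec.map _ ≫ _) ≫ _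
    rw [key, key]
    congr 3
    refine RingHom.ext fun b => ?_
    show inl (x _) + inr (D _) = inl (x _)
    rw [hDθ, TrivSqZeroExt.inr_zero, add_zero]
  have hker : Pts.map L hc (fstHom K K K) (P - P₀) = 0 := by
    rw [map_sub, sub_eq_zero]
    refine Pts.ext ?_
    rw [Pts.map_hom, Pts.map_hom]
    show Spec.map _ ≫ Spec.map _ ≫ _ = Spec.map _ ≫ Spec.map _ ≫ _
    rw [← Category.assoc, ← Category.assoc, specMap_ofHom_comp, specMap_ofHom_comp]
    congr 3
    refine RingHom.ext fun a => ?_
    show fst (inl (x a) + inr (D a) : TrivSqZeroExt K K) = fst (inl (x a) : TrivSqZeroExt K K)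
    simp
  have hPP := sub_eq_zero.mp (eq_zero_of_nsmul_tsze L hc n hn _ hker hn')
  have he := chartPt_injective hV (congrArg Pts.hom hPP :)
  ext a
  have := congrArg snd (RingHom.congr_fun he a)
  simpa [ψ, ψ₀] using this

/-- Nakayama at all maximal ideals. -/
theorem subsingleton_of_forall_maximal {C N : Type u} [CommRing C] [AddCommGroup N] [Module C N]
    [Module.Finite C N] (h : ∀ m : Ideal C, m.IsMaximal → m • (⊤ : Submodule C N) = ⊤) :
    Subsingleton N := by
  have hann : Module.annihilator C N = ⊤ := by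
    by_contra hne
    obtain ⟨m, hm, hle⟩ := Ideal.exists_le_maximal _ hne
    obtain ⟨r, hr, hr0⟩ := Submodule.exists_sub_one_mem_and_smul_eq_zero_of_fg_of_le_smul m
      (⊤ : Submodule C N) Module.Finite.fg_top (h m hm).ge
    have hrm : r ∈ m := hle (Module.mem_annihilator.mpr fun y => hr0 y trivial)
    have h1 : r - (r - 1) ∈ m := m.sub_mem hrm hr
    rw [sub_sub_cancel] at h1
    exact hm.ne_top ((Ideal.eq_top_iff_one m).mpr h1)
  exact Module.annihilator_eq_top_iff.mp hann

/-- An algebra of finite type over a field without tangent vectors killed by a map is formally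
unramified over its source. -/
theorem formallyUnramified_of_forall {B C : Type u} [IsAlgClosed K] [CommRing B] [CommRing C]
    [Algebra K B] [Algebra K C] [Algebra B C] [IsScalarTower K B C] [Algebra.FiniteType K C]
    (h : ∀ (x : C →ₐ[K] K) (D : C →+ K), (∀ a b, D (a * b) = x a * D b + x b * D a) →
      (∀ c : K, D (algebraMap K C c) = 0) → (∀ b : B, D (algebraMap B C b) = 0) → D = 0) :
    Algebra.FormallyUnramified B C := by
  have : Algebra.FiniteType B C := Algebra.FiniteType.of_restrictScalars_finiteType K B C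
  refine ⟨subsingleton_of_forall_maximal (C := C) (N := Ω[C⁄B]) fun m hm => ?_⟩
  by_contra hne
  let := Ideal.Quotient.field m
  have : Algebra.FiniteType K (C ⧸ m) :=
    Algebra.FiniteType.of_surjective (Ideal.Quotient.mkₐ K m) Ideal.Quotient.mk_surjective
  have := finite_of_finite_type_of_isJacobsonRing K (C ⧸ m)
  let e : K ≃ₐ[K] C ⧸ m := AlgEquiv.ofBijective (Algebra.ofId K (C ⧸ m))
    (IsAlgClosed.algebraMap_bijective_of_isIntegral (k := K) (K := C ⧸ m))
  let x : C →ₐ[K] K := e.symm.toAlgHom.comp (Ideal.Quotient.mkₐ K m)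
  have hxm : ∀ a, a - algebraMap K C (x a) ∈ m := fun a => by
    rw [← Ideal.Quotient.eq]
    exact (e.apply_symm_apply (Ideal.Quotient.mk m a)).symm.trans (by rfl)
  let S : Submodule C Ω[C⁄B] := m • ⊤
  have hS : ∀ (a : C) (q : Ω[C⁄B] ⧸ S), a • q = x a • q := fun a q => by
    obtain ⟨q, rfl⟩ := S.mkQ_surjective q
    rw [← algebraMap_smul C (x a) (S.mkQ q), ← sub_eq_zero, ← sub_smul, ← map_smul,
      Submodule.mkQ_apply, Submodule.Quotient.mk_eq_zero]
    exact Submodule.smul_mem_smul (hxm a) trivial
  obtain ⟨q, hq⟩ : ∃ q : Ω[C⁄B] ⧸ S, q ≠ 0 := by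
    by_contra hcon
    push Not at hcon
    exact hne (eq_top_iff.mpr fun y _ => (Submodule.Quotient.mk_eq_zero S).mp (hcon _))
  obtain ⟨l, hl⟩ : ∃ l : Module.Dual K (Ω[C⁄B] ⧸ S), l q ≠ 0 := by
    by_contra hcon
    push Not at hcon
    exact hq ((Module.forall_dual_apply_eq_zero_iff K q).mp hcon)
  let D : C →+ K :=
    l.toAddMonoidHom.comp (S.mkQ.toAddMonoidHom.comp (KaehlerDifferential.D B C).toLinearMap.toAddMonoidHom)
  have hD : D = 0 := h x D (fun a b => by
      show l (S.mkQ (KaehlerDifferential.D B C (a * b))) = _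
      rw [Derivation.leibniz, map_add, map_smul, map_smul, hS, hS, map_add, map_smul, map_smul]
      rfl)
    (fun c => by
      show l (S.mkQ (KaehlerDifferential.D B C (algebraMap K C c))) = 0
      rw [IsScalarTower.algebraMap_apply K B C, Derivation.map_algebraMap, map_zero, map_zero])
    (fun b => by
      show l (S.mkQ (KaehlerDifferential.D B C (algebraMap B C b))) = 0
      rw [Derivation.map_algebraMap, map_zero, map_zero])
  have hall : ∀ y : Ω[C⁄B], l (S.mkQ y) = 0 := fun y => by
    have hy : y ∈ Submodule.span C (Set.range (KaehlerDifferential.D B C)) := by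
      rw [KaehlerDifferential.span_range_derivation]; trivial
    induction hy using Submodule.span_induction with
    | mem y hy =>
      obtain ⟨a, rfl⟩ := hy
      exact DFunLike.congr_fun hD a
    | zero => simp
    | add y z _ _ hy hz => rw [map_add, map_add, hy, hz, add_zero]
    | smul a y _ hy => rw [map_smul, hS, map_smul, hy, smul_zero]
  obtain ⟨y, rfl⟩ := S.mkQ_surjective q
  exact hl (hall y)

end Fermat.Agent.AbVar.Sch
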